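import Fermat.Agent.Jac.ModGlue.Rigid

/-!
# Generators of inverse images of invertible sheaves

A generator of an invertible sheaf gives, by the unit of the adjunction, a generator of its inverse
image: at each point it is nonzero in the fibre, which is the inverse image to the point.
-/

set_option autoImplicit false

universe u

noncomputable section

open CategoryTheory TopologicalSpace AlgebraicGeometry

namespace Fermat.Agent.Jac.ModGlue

variable {X Y : Scheme.{u}}

/-- An invertible sheaf on a one-point scheme is trivial. -/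
theorem nonempty_iso_oMod [Subsingleton X] [Nonempty X] {M : X.Modules}
    (hM : Scheme.Modules.IsInvertible M) : Nonempty (M ≅ oMod X) := by
  obtain ⟨U, hxU, ⟨e⟩⟩ := hM.exists_trivialization (Classical.arbitrary X)
  have hU : U = ⊤ := eq_top_iff.mpr fun y _ => Subsingleton.elim (Classical.arbitrary X) y ▸ hxU
  subst hU
  have : IsIso (⊤ : X.Opens).ι := inferInstanceAs (IsIso X.topIso.hom)
  exact ⟨((Scheme.Modules.pullbackId X).app M).symm ≪≫
    (Scheme.Modules.pullbackCongr (IsIso.inv_hom_id (⊤ : X.Opens).ι).symm).app M ≪≫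
      ((Scheme.Modules.pullbackComp _ _).app M).symm ≪≫
        (Scheme.Modules.pullback (inv (⊤ : X.Opens).ι)).mapIso e ≪≫
          Scheme.Modules.pullbackUnitIso _⟩

/-- Being a generator is local. -/
theorem IsGen.of_cover {P : X.Modules} {W : X.Opens} {g : Γ(P, W)} {ι : Type*} (U : ι → X.Opens)
    (hU : ∀ i, U i ≤ W) (hcov : W ≤ ⨆ i, U i) (h : ∀ i, IsGen P (U i) (ModGlue.mres P (hU i) g)) :
    IsGen P W g := by
  intro W' hW'
  have hc : W' ≤ ⨆ i, W' ⊓ U i := by rw [← inf_iSup_eq]; exact le_inf le_rfl (hW'.trans hcov)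
  have hb : ∀ (i : ι) (O : X.Opens) (hO : O ≤ U i),
      Function.Bijective fun a : Γ(X, O) =>
        a • ModGlue.mres P (hO.trans (hU i)) g := fun i O hO => by
    simpa only [mres_mres] using h i O hO
  refine ⟨fun a b hab => ?_, fun s => ?_⟩
  · refine TopCat.Sheaf.eq_of_locally_eq' X.sheaf (fun i => W' ⊓ U i) W'
      (fun i => homOfLE inf_le_left) hc
      a b fun i => (hb i (W' ⊓ U i) inf_le_right).1 ?_
    have := congrArg (ModGlue.mres P (inf_le_left : W' ⊓ U i ≤ W')) hab
    simp only [mres_smul, mres_mres] at this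
    exact this
  · choose a ha using fun i => (hb i (W' ⊓ U i) inf_le_right).2 (ModGlue.mres P inf_le_left s)
    obtain ⟨(b : Γ(X, W')), hb', -⟩ :=
      TopCat.Sheaf.existsUnique_gluing' X.sheaf (fun i => W' ⊓ U i) W'
      (fun i => homOfLE inf_le_left) hc a fun i j => (hb i _ (inf_le_left.trans inf_le_right)).1 (by
        have h1 := congrArg (ModGlue.mres P (inf_le_left : (W' ⊓ U i) ⊓ (W' ⊓ U j) ≤ _)) (ha i)
        have h2 := congrArg (ModGlue.mres P (inf_le_right : (W' ⊓ U i) ⊓ (W' ⊓ U j) ≤ _)) (ha j)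
        simp only [mres_smul, mres_mres] at h1 h2
        exact h1.trans h2.symm)
    refine ⟨b, eq_of_cover P _ (fun i => inf_le_left) hc _ _ fun i => ?_⟩
    show ModGlue.mres P _ (b • _) = _
    rw [mres_smul, mres_mres, ← ha i]
    exact congrArg (· • _) (hb' i)

variable (f : Y ⟶ X)

/-- The pull-back of a section. -/
def pullSec (P : X.Modules) (W : X.Opens) (s : Γ(P, W)) :
    Γ((Scheme.Modules.pullback f).obj P, f ⁻¹ᵁ W) :=
  ((Scheme.Modules.pullbackPushforwardAdjunction f).unit.app P).app W s

/-- Pull-back of sections is semilinear. -/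
theorem pullSec_smul (P : X.Modules) {W : X.Opens} (a : Γ(X, W)) (s : Γ(P, W)) :
    pullSec f P W (a • s) = f.app W a • pullSec f P W s :=
  ((Scheme.Modules.pullbackPushforwardAdjunction f).unit.app P).app_smul a s

/-- Pull-back of sections commutes with restriction. -/
theorem pullSec_mres (P : X.Modules) {W' W : X.Opens} (h : W' ≤ W) (s : Γ(P, W)) :
    pullSec f P W' (mres P h s) =
      mres ((Scheme.Modules.pullback f).obj P) (f.preimage_mono h) (pullSec f P W s) :=
  app_mres ((Scheme.Modules.pullbackPushforwardAdjunction f).unit.app P) h s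

/-- **The pull-back of a generator is a generator.** -/
theorem IsGen.pullSec {P : X.Modules} (hP : Scheme.Modules.IsInvertible P) {W : X.Opens}
    {g : Γ(P, W)} (hg : IsGen P W g) :
    IsGen ((Scheme.Modules.pullback f).obj P) (f ⁻¹ᵁ W) (ModGlue.pullSec f P W g) := by
  set Q := (Scheme.Modules.pullback f).obj P
  set g' := ModGlue.pullSec f P W g
  have hloc : ∀ y : ↥(f ⁻¹ᵁ W), ∃ (U : Y.Opens) (hU : U ≤ f ⁻¹ᵁ W), y.1 ∈ U ∧
      IsGen Q U (ModGlue.mres Q hU g') := by
    rintro ⟨y, hy⟩
    -- Near `y` compare the pull-back of `g` with a generator `h`: it is `a • h`.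
    obtain ⟨Wy, h, hyW, hWy, hh⟩ := hasGens_of_isInvertible (hP.pullback f) (f ⁻¹ᵁ W) y hy
    obtain ⟨a, ha⟩ := (hh Wy le_rfl).2 (ModGlue.mres Q hWy g')
    simp only [mres_self] at ha
    -- The value at the residue field of `y` shows that `a` is invertible at `y`.
    let z := Y.fromSpecResidueField y
    obtain ⟨e⟩ := nonempty_iso_oMod (hP.pullback (z ≫ f))
    let ψ := (Scheme.Modules.pullbackPushforwardAdjunction (z ≫ f)).homEquiv P (oMod _) e.hom
    let r : Q ⟶ (Scheme.Modules.pushforward z).obj (oMod _) :=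
      ((Scheme.Modules.pullbackPushforwardAdjunction f).homEquiv P _).symm
        (ψ ≫ (Scheme.Modules.pushforwardComp z f).inv.app (oMod _))
    have hr : ∀ s : Γ(P, W), r.app (f ⁻¹ᵁ W) (ModGlue.pullSec f P W s) = ψ.app W s := by
      intro s
      have h1 := (Scheme.Modules.pullbackPushforwardAdjunction f).homEquiv_unit P
        ((Scheme.Modules.pushforward z).obj (oMod _)) r
      rw [Equiv.apply_symm_apply] at h1
      exact (congr(Scheme.Modules.Hom.app $h1 W s)).symm
    have hψ := isRig_of_pullback (σ := z ≫ f) (P := P) (V := (⊤ : X.Opens)) e.hom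
    have hy0 : (z ≫ f) (IsLocalRing.closedPoint (Y.residueField y)) ∈ W := by
      show f (z _) ∈ W
      rw [show z (IsLocalRing.closedPoint (Y.residueField y)) = y from
        Y.fromSpecResidueField_apply y _]
      exact hy
    have hm := hψ.mem_basicOpen le_top hg hy0
    have h2 : rres (Spec (Y.residueField y)) (z.preimage_mono hWy)
        (oFun (W := (z ≫ f) ⁻¹ᵁ W) (ψ.app W g)) =
        z.app Wy a * oFun (W := z ⁻¹ᵁ Wy) (r.app Wy h) := by
      rw [← hr g]
      show ModGlue.mres ((Scheme.Modules.pushforward z).obj (oMod _)) hWy (r.app (f ⁻¹ᵁ W) g') = _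
      rw [← app_mres r, ← ha, r.app_smul]
      rfl
    have hm' : IsLocalRing.closedPoint (Y.residueField y) ∈ (Spec (Y.residueField y)).basicOpen
        (rres (Spec (Y.residueField y)) (z.preimage_mono hWy)
            (oFun (W := (z ≫ f) ⁻¹ᵁ W) (ψ.app W g))) := by
      rw [rres, Scheme.basicOpen_res]
      refine ⟨?_, hm⟩
      show z _ ∈ Wy
      rw [show z (IsLocalRing.closedPoint (Y.residueField y)) = y from
        Y.fromSpecResidueField_apply y _]
      exact hyW
    rw [h2, Scheme.basicOpen_mul, ← Scheme.preimage_basicOpen] at hm'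
    have hya : y ∈ Y.basicOpen a := by
      have := hm'.1
      rwa [← Y.fromSpecResidueField_apply y (IsLocalRing.closedPoint (Y.residueField y))]
    refine ⟨Y.basicOpen a, (Y.basicOpen_le a).trans hWy, hya, fun W' hW' => ?_⟩
    have hu := isUnit_rres_of_le a (hW'.trans (Y.basicOpen_le a)) hW'
    have e1 : ModGlue.mres Q hW' (ModGlue.mres Q ((Y.basicOpen_le a).trans hWy) g') =
        rres Y (hW'.trans (Y.basicOpen_le a)) a •
            ModGlue.mres Q (hW'.trans (Y.basicOpen_le a)) h := by
      rw [mres_mres, ← mres_mres Q (hW'.trans (Y.basicOpen_le a)) hWy, ← ha, mres_smul]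
    rw [e1]
    simp only [← mul_smul]
    exact (hh W' (hW'.trans (Y.basicOpen_le a))).comp
      (IsUnit.isUnit_iff_mulRight_bijective.mp hu)
  -- Generation is local.
  choose U hU hyU hgen using hloc
  exact IsGen.of_cover U hU (fun y hy => Opens.mem_iSup.mpr ⟨⟨y, hy⟩, hyU _⟩) hgen

end Fermat.Agent.Jac.ModGlue

end
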