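import Fermat.Agent.Jac.ModGlue.Generator

/-!
# Sections of a locally free rank one sheaf over an affine open

Restriction to a basic open is localisation: sections vanishing there are killed by a power, and
sections there extend after multiplication by a power; hence a global section generates near every
point. -/

set_option autoImplicit false

universe u

noncomputable section

open CategoryTheory TopologicalSpace AlgebraicGeometry

namespace Fermat.Agent.Jac.ModGlue

variable {X : Scheme.{u}} {P : X.Modules} {U : X.Opens}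

/-- Finitely many basic opens with generators cover an affine open. -/
theorem exists_basic_gens (hU : IsAffineOpen U) (hP : HasGens U P) :
    ∃ (S : Finset ↥U) (c : ↥U → Γ(X, U)) (g : ∀ y, Γ(P, X.basicOpen (c y))),
      (∀ y, IsGen P (X.basicOpen (c y)) (g y)) ∧ U ≤ ⨆ y : ↥(S : Set ↥U), X.basicOpen (c y.1) := by
  classical
  have h : ∀ y : ↥U, ∃ (c : Γ(X, U)) (g : Γ(P, X.basicOpen c)),
      y.1 ∈ X.basicOpen c ∧ IsGen P (X.basicOpen c) g := by
    rintro ⟨y, hy⟩
    obtain ⟨W, g, hyW, -, hg⟩ := hP y hy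
    obtain ⟨c, hcW, hyc⟩ := hU.exists_basicOpen_le ⟨y, hyW⟩ hy
    exact ⟨c, mres P hcW g, hyc, hg.mres hcW⟩
  choose c g hyc hg using h
  obtain ⟨S, hS⟩ := hU.isCompact.elim_finite_subcover (fun y => (X.basicOpen (c y) : Set X))
    (fun y => (X.basicOpen (c y)).2) (fun x hx => Set.mem_iUnion.mpr ⟨⟨x, hx⟩, hyc _⟩)
  refine ⟨S, c, g, hg, fun x hx => Opens.mem_iSup.mpr ?_⟩
  obtain ⟨y, hy, hxy⟩ := Set.mem_iUnion₂.mp (hS hx)
  exact ⟨⟨y, hy⟩, hxy⟩

/-- A section vanishing on a basic open is killed by a power. -/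
theorem exists_pow_smul_eq_zero (hU : IsAffineOpen U) (hP : HasGens U P) (b : Γ(X, U)) {s : Γ(P, U)}
    (hs : mres P (X.basicOpen_le b) s = 0) : ∃ N : ℕ, b ^ N • s = 0 := by
  classical
  obtain ⟨S, c, g, hg, hcov⟩ := exists_basic_gens hU hP
  have h : ∀ y, ∃ n : ℕ, mres P (X.basicOpen_le (c y)) (b ^ n • s) = 0 := by
    intro y
    let V := X.basicOpen (c y)
    let b' := rres X (X.basicOpen_le (c y)) b
    obtain ⟨a, ha⟩ := (hg y V le_rfl).2 (mres P (X.basicOpen_le (c y)) s)
    simp only [mres_self] at ha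
    have hle : X.basicOpen b' ≤ V := X.basicOpen_le b'
    have hle' : X.basicOpen b' ≤ X.basicOpen b := by
      simp only [b', rres, Scheme.basicOpen_res]; exact inf_le_right
    have h0 : rres X hle a = 0 := by
      refine (hg y (X.basicOpen b') hle).1 ?_
      show rres X hle a • mres P hle (g y) = (0 : Γ(X, X.basicOpen b')) • mres P hle (g y)
      rw [zero_smul, ← mres_smul, ha, mres_mres, ← mres_mres P hle' (X.basicOpen_le b), hs,
        map_zero]
    let : Algebra Γ(X, V) Γ(X, X.basicOpen b') := (rres X hle).toAlgebra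
    have : IsLocalization.Away b' Γ(X, X.basicOpen b') :=
      (hU.basicOpen (c y)).isLocalization_of_eq_basicOpen b' (homOfLE hle) rfl
    obtain ⟨⟨_, n, rfl⟩, hn⟩ :=
      (IsLocalization.map_eq_zero_iff (Submonoid.powers b') Γ(X, X.basicOpen b') a).mp
      (show algebraMap Γ(X, V) Γ(X, X.basicOpen b') a = 0 from h0)
    refine ⟨n, ?_⟩
    rw [mres_smul, ← ha, smul_smul, map_pow, hn, zero_smul]
  choose n hn using h
  refine ⟨S.sup n, eq_of_cover P (fun y : ↥(S : Set ↥U) => X.basicOpen (c y.1))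
    (fun y => X.basicOpen_le _) hcov _ _ fun y => ?_⟩
  obtain ⟨l, hl⟩ := Nat.exists_eq_add_of_le (Finset.le_sup (f := n) y.2)
  rw [map_zero, hl, pow_add, mul_comm, mul_smul, mres_smul, hn, smul_zero]

/-- A section on a basic open extends after multiplication by a power. -/
theorem exists_pow_smul_extend (hU : IsAffineOpen U) (hP : HasGens U P) (b : Γ(X, U))
    (t : Γ(P, X.basicOpen b)) :
    ∃ (N : ℕ) (s : Γ(P, U)), mres P (X.basicOpen_le b) s =
      rres X (X.basicOpen_le b) (b ^ N) • t := by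
  classical
  obtain ⟨S, c, g, hg, hcov⟩ := exists_basic_gens hU hP
  -- Extend after a power of `b` on each of finitely many basic opens with generators; the
  -- extensions agree on overlaps after one more power, so glue.
  have h : ∀ y, ∃ (n : ℕ) (s : Γ(P, X.basicOpen (c y))),
      ∀ (O : X.Opens) (h₁ : O ≤ X.basicOpen (c y))
      (h₂ : O ≤ X.basicOpen b),
      mres P h₁ s = rres X (h₂.trans (X.basicOpen_le b)) (b ^ n) • mres P h₂ t := by
    intro y
    let V := X.basicOpen (c y)
    let b' := rres X (X.basicOpen_le (c y)) b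
    have hle : X.basicOpen b' ≤ V := X.basicOpen_le b'
    have hb' : X.basicOpen b' = V ⊓ X.basicOpen b := by
      simp only [b', rres, Scheme.basicOpen_res, V]
    have hle' : X.basicOpen b' ≤ X.basicOpen b := hb' ▸ inf_le_right
    obtain ⟨a, ha⟩ := (hg y (X.basicOpen b') hle).2 (mres P hle' t)
    let : Algebra Γ(X, V) Γ(X, X.basicOpen b') := (rres X hle).toAlgebra
    have : IsLocalization.Away b' Γ(X, X.basicOpen b') :=
      (hU.basicOpen (c y)).isLocalization_of_eq_basicOpen b' (homOfLE hle) rfl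
    obtain ⟨n, a', ha'⟩ := IsLocalization.Away.surj b' a
    refine ⟨n, a' • g y, fun O h₁ h₂ => ?_⟩
    have hO : O ≤ X.basicOpen b' := hb' ▸ le_inf h₁ h₂
    change a * rres X hle b' ^ n = rres X hle a' at ha'
    have e : mres P hle (a' • g y) = rres X (hle.trans (X.basicOpen_le (c y))) (b ^ n) •
        mres P hle' t := by
      rw [mres_smul, ← ha', ← ha, mul_comm, mul_smul, ← map_pow, map_pow, map_pow]
      simp only [b', rres_rres]
    have := congrArg (mres P hO) e
    simp only [mres_mres, mres_smul, rres_rres] at this ⊢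
    exact this
  choose n s hs using h
  let N := S.sup n
  obtain ⟨s', hs'd⟩ : ∃ s' : ∀ y, Γ(P, X.basicOpen (c y)),
      ∀ y, s' y = rres X (X.basicOpen_le (c y)) (b ^ (N - n y)) • s y := ⟨_, fun _ => rfl⟩
  have hs' : ∀ y ∈ S, ∀ (O : X.Opens) (h₁ : O ≤ X.basicOpen (c y)) (h₂ : O ≤ X.basicOpen b),
      mres P h₁ (s' y) = rres X (h₂.trans (X.basicOpen_le b)) (b ^ N) • mres P h₂ t := by
    intro y hy O h₁ h₂
    rw [hs'd, mres_smul, hs y O h₁ h₂, rres_rres, smul_smul, ← map_mul, ← pow_add,
      Nat.sub_add_cancel (Finset.le_sup (f := n) hy)]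
  have hd : ∀ p : ↥(S : Set ↥U) × ↥(S : Set ↥U), ∃ M : ℕ,
      rres X ((inf_le_left : X.basicOpen (c p.1.1) ⊓ X.basicOpen (c p.2.1) ≤ _).trans
        (X.basicOpen_le _)) (b ^ M) •
        (mres P (inf_le_left : X.basicOpen (c p.1.1) ⊓ X.basicOpen (c p.2.1) ≤ _) (s' p.1.1) -
          mres P (inf_le_right : X.basicOpen (c p.1.1) ⊓ X.basicOpen (c p.2.1) ≤ _)
              (s' p.2.1)) = 0 := by
    intro p
    let O := X.basicOpen (c p.1.1) ⊓ X.basicOpen (c p.2.1)
    have hO : O ≤ U := inf_le_left.trans (X.basicOpen_le _)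
    have hOaff : IsAffineOpen O := by
      have := hU.basicOpen (c p.1.1 * c p.2.1)
      rwa [X.basicOpen_mul] at this
    have hb : X.basicOpen (rres X hO b) = O ⊓ X.basicOpen b := by
      simp only [rres, Scheme.basicOpen_res]
    obtain ⟨M, hM⟩ := exists_pow_smul_eq_zero hOaff (hP.mono hO) (rres X hO b)
      (s := mres P inf_le_left (s' p.1.1) - mres P inf_le_right (s' p.2.1)) (by
        rw [map_sub, mres_mres, mres_mres, hs' _ p.1.2 _ _ (hb.le.trans inf_le_right),
          hs' _ p.2.2 _ _ (hb.le.trans inf_le_right), sub_self])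
    exact ⟨M, by rw [map_pow]; exact hM⟩
  choose M hM using hd
  let K := Finset.univ.sup M
  obtain ⟨σ, hσ⟩ := exists_glue P (fun y : ↥(S : Set ↥U) => X.basicOpen (c y.1))
    (fun y => X.basicOpen_le _)
    hcov (fun y => rres X (X.basicOpen_le (c y.1)) (b ^ K) • s' y.1) fun y y' => by
      obtain ⟨l, hl⟩ := Nat.exists_eq_add_of_le (Finset.le_sup (f := M) (Finset.mem_univ (y, y')))
      rw [mres_smul, mres_smul, rres_rres, rres_rres, ← sub_eq_zero, ← smul_sub,
        show K = M (y, y') + l from hl, pow_add, mul_comm, map_mul, mul_smul, hM (y, y'), smul_zero]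
  refine ⟨K + N, σ, eq_of_cover P (fun y : ↥(S : Set ↥U) => X.basicOpen (c y.1) ⊓ X.basicOpen b)
    (fun y => inf_le_right)
    (by rw [← iSup_inf_eq]; exact le_inf ((X.basicOpen_le b).trans hcov) le_rfl)
    _ _ fun y => ?_⟩
  rw [mres_mres, ← mres_mres P inf_le_left (X.basicOpen_le (c y.1)), hσ y, mres_smul, rres_rres,
    hs' y.1 y.2 _ _ inf_le_right, smul_smul, ← map_mul, ← pow_add, mres_smul, rres_rres]

/-- Near every point of an affine open a section over the open generates. -/
theorem exists_gen_section (hU : IsAffineOpen U) (hP : HasGens U P) {x : X} (hx : x ∈ U) :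
    ∃ (b : Γ(X, U)) (s : Γ(P, U)), x ∈ X.basicOpen b ∧
      IsGen P (X.basicOpen b) (mres P (X.basicOpen_le b) s) := by
  obtain ⟨W, g, hxW, -, hg⟩ := hP x hx
  obtain ⟨b, hbW, hxb⟩ := hU.exists_basicOpen_le ⟨x, hxW⟩ hx
  obtain ⟨N, s, hs⟩ := exists_pow_smul_extend hU hP b (mres P hbW g)
  refine ⟨b, s, hxb, fun W' h => ?_⟩
  have hu : IsUnit (rres X (h.trans (X.basicOpen_le b)) (b ^ N)) := by
    have h1 := (RingedSpace.isUnit_res_basicOpen X.toLocallyRingedSpace.toRingedSpace b).map
      (rres X h)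
    rw [← rres_rres h (X.basicOpen_le b), map_pow, map_pow]
    exact h1.pow N
  rw [hs, mres_smul, rres_rres, mres_mres]
  simp only [← mul_smul]
  exact (hg W' (h.trans hbW)).comp (IsUnit.isUnit_iff_mulRight_bijective.mp hu)

end Fermat.Agent.Jac.ModGlue

end
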