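import Fermat.Agent.Jac.Scheme.Sec.Basic
import Fermat.Agent.Jac.Scheme.Sec.AffineGen
import Fermat.Agent.Jac.Scheme.Sec.PullbackGen

/-!
# The inverse image of a sheaf is the base change of its algebraic line bundle
-/

set_option autoImplicit false

universe u

noncomputable section

open CategoryTheory CategoryTheory.Limits AlgebraicGeometry AlgebraicGeometry.RelPicard
  NeronModelInfra
  TensorProduct
open Fermat.Agent.Jac.ModGlue

namespace Fermat.Agent.Jac

namespace ModGlue

variable {X Y : Scheme.{u}}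

/-- The pull-backs of the sections over an affine open span the sections of the inverse image. -/
theorem span_range_pullSec (f : Y ⟶ X) {P : X.Modules} (hP : Scheme.Modules.IsInvertible P)
    {U : X.Opens} (hU : IsAffineOpen U) (hV : IsAffineOpen (f ⁻¹ᵁ U)) :
    Submodule.span Γ(Y, f ⁻¹ᵁ U) (Set.range (pullSec f P U)) = ⊤ := by
  set Q := (Scheme.Modules.pullback f).obj P
  refine eq_top_iff.mpr fun t _ => ?_
  let J : Ideal Γ(Y, f ⁻¹ᵁ U) :=
    (Submodule.span Γ(Y, f ⁻¹ᵁ U) (Set.range (pullSec f P U))).comap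
      (LinearMap.toSpanSingleton Γ(Y, f ⁻¹ᵁ U) Γ(Q, f ⁻¹ᵁ U) t)
  suffices h : J = ⊤ by
    have h1 : (1 : Γ(Y, f ⁻¹ᵁ U)) ∈ J := h ▸ Submodule.mem_top
    simpa [J] using h1
  have hrad : ∀ y ∈ f ⁻¹ᵁ U, ∃ b' ∈ J.radical, y ∈ Y.basicOpen b' := by
    intro y hy
    obtain ⟨b, s, hxb, hs⟩ := exists_gen_section hU (hasGens_of_isInvertible hP U) hy
    let b' := f.app U b
    have hD : Y.basicOpen b' = f ⁻¹ᵁ X.basicOpen b := (Scheme.preimage_basicOpen f b).symm
    refine ⟨b', ?_, hD ▸ hxb⟩
    have hgen := (IsGen.pullSec f hP hs).mres hD.le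
    rw [pullSec_mres f P (X.basicOpen_le b) s, mres_mres] at hgen
    obtain ⟨a, ha⟩ := (hgen (Y.basicOpen b') le_rfl).2 (mres Q (Y.basicOpen_le b') t)
    simp only [mres_self] at ha
    let : Algebra Γ(Y, f ⁻¹ᵁ U) Γ(Y, Y.basicOpen b') := (rres Y (Y.basicOpen_le b')).toAlgebra
    have : IsLocalization.Away b' Γ(Y, Y.basicOpen b') :=
      hV.isLocalization_of_eq_basicOpen b' (homOfLE (Y.basicOpen_le b')) rfl
    obtain ⟨n, a', ha'⟩ := IsLocalization.Away.surj b' a
    change a * rres Y (Y.basicOpen_le b') b' ^ n = rres Y (Y.basicOpen_le b') a' at ha'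
    obtain ⟨M, hM⟩ := exists_pow_smul_eq_zero hV (hasGens_of_isInvertible (hP.pullback f) _) b'
      (s := b' ^ n • t - a' • pullSec f P U s) (by
        rw [map_sub, mres_smul, mres_smul, ← ha, ← ha', map_pow, smul_smul, mul_comm, sub_eq_zero])
    refine ⟨M + n, ?_⟩
    show b' ^ (M + n) • t ∈ Submodule.span Γ(Y, f ⁻¹ᵁ U) (Set.range (pullSec f P U))
    have h1 : b' ^ (M + n) • t = (b' ^ M * a') • pullSec f P U s := by
      rw [smul_sub, sub_eq_zero, smul_smul, smul_smul, ← pow_add] at hM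
      exact hM
    rw [h1]
    exact Submodule.smul_mem _ _ (Submodule.subset_span ⟨s, rfl⟩)
  refine Ideal.radical_eq_top.mp (eq_top_iff.mpr ?_)
  have hspan := hV.self_le_iSup_basicOpen_iff (s := (J.radical : Set Γ(Y, f ⁻¹ᵁ U))).mp
      fun y hy => by
    obtain ⟨b', hb', hyb⟩ := hrad y hy
    exact TopologicalSpace.Opens.mem_iSup.mpr ⟨⟨b', hb'⟩, hyb⟩
  exact hspan.symm.le.trans (Ideal.span_le.mpr le_rfl)

/-- Pull-back of functions on affine charts. -/
theorem rres_app_chartFun {A B : Type u} [CommRing A] [CommRing B] (j : Spec (CommRingCat.of A) ⟶ X)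
    [IsOpenImmersion j] (j' : Spec (CommRingCat.of B) ⟶ Y) [IsOpenImmersion j'] (g : Y ⟶ X)
    (ψ : A →+* B) (hj : Spec.map (CommRingCat.ofHom ψ) ≫ j = j' ≫ g)
    (h : j' ''ᵁ ⊤ ≤ g ⁻¹ᵁ (j ''ᵁ ⊤)) (a : A) :
    rres Y h (g.app (j ''ᵁ ⊤) (chartFun j a)) = chartFun j' (ψ a) := by
  apply (j'.appIso ⊤).commRingCatIsoToRingEquiv.injective
  show (j'.appIso ⊤).hom (rres Y h (g.app (j ''ᵁ ⊤) (chartFun j a))) =
    (j'.appIso ⊤).hom ((j'.appIso ⊤).inv ((Scheme.ΓSpecIso (CommRingCat.of B)).inv (ψ a)))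
  rw [← CommRingCat.comp_apply (j'.appIso ⊤).inv, (j'.appIso ⊤).inv_hom_id]
  simp only [rres, chartFun, CommRingCat.id_apply]
  show (g.app (j ''ᵁ ⊤) ≫ Y.presheaf.map (homOfLE h).op ≫ (j'.appIso ⊤).hom)
    ((j.appIso ⊤).inv ((Scheme.ΓSpecIso (CommRingCat.of A)).inv a)) = _
  have key : g.app (j ''ᵁ ⊤) ≫ Y.presheaf.map (homOfLE h).op ≫ (j'.appIso ⊤).hom =
      (j.appIso ⊤).hom ≫ (Spec.map (CommRingCat.ofHom ψ)).appTop := by
    rw [Scheme.Hom.appIso_hom', Scheme.Hom.appIso_hom', Scheme.Hom.app_eq_appLE,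
      Scheme.Hom.map_appLE, Scheme.Hom.appLE_comp_appLE, Scheme.Hom.appTop, Scheme.Hom.app_eq_appLE]
    erw [Scheme.Hom.appLE_comp_appLE]
    simp only [hj]
    rfl
  rw [key, CommRingCat.comp_apply, ← CommRingCat.comp_apply (j.appIso ⊤).inv,
    (j.appIso ⊤).inv_hom_id, CommRingCat.id_apply, ← CommRingCat.comp_apply,
    ← Scheme.ΓSpecIso_inv_naturality]
  rfl

end ModGlue

namespace CurveCover

variable {k : Type u} [Field k] {C : Scheme.{u}} {c : C ⟶ Spec (CommRingCat.of k)}
  {ε : SchemeHomOver (𝟙 (Spec (CommRingCat.of k))) c} (cov : CurveCover c ε)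
variable {R R' : Type u} [CommRing R] [Algebra k R] [CommRing R'] [Algebra k R'] (φ : R →ₐ[k] R')

theorem baseChange_jR (i : Fin 2) :
    Spec.map (CommRingCat.ofHom (cov.D.mapA φ i).toRingHom) ≫ cov.jR R i =
      cov.jR R' i ≫ baseChangeSnd c (specMapOver φ) := by
  apply pullback.hom_ext
  · simp only [baseChangeSnd, Category.assoc, pullback.lift_fst, Category.comp_id, jR_fst]
    rw [← Spec.map_comp_assoc, ← CommRingCat.ofHom_comp]
    congr 3
    ext b
    show cov.D.mapA φ i ((1 : R) ⊗ₜ b) = (1 : R') ⊗ₜ b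
    simp
  · rw [Category.assoc, jR_snd, Category.assoc,
      show baseChangeSnd c (specMapOver φ) ≫ pullback.snd c (specT k R) =
        pullback.snd c (specT k R') ≫ (specMapOver φ).1 from pullback.lift_snd _ _ _,
      ← Category.assoc, jR_snd]
    show Spec.map _ ≫ Spec.map _ = Spec.map _ ≫ Spec.map _
    rw [← Spec.map_comp, ← Spec.map_comp, ← CommRingCat.ofHom_comp, ← CommRingCat.ofHom_comp]
    congr 2

theorem baseChange_jR01 :
    Spec.map (CommRingCat.ofHom (cov.D.mapA01 φ).toRingHom) ≫ cov.jR01 R =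
      cov.jR01 R' ≫ baseChangeSnd c (specMapOver φ) := by
  rw [jR01, jR01, Category.assoc, ← baseChange_jR, ← Spec.map_comp_assoc, ← Spec.map_comp_assoc,
    ← CommRingCat.ofHom_comp, ← CommRingCat.ofHom_comp]
  congr 3
  exact RingHom.ext fun a => CurveData.mapA01_res φ 0 a

theorem preimage_opensR (i : Fin 2) :
    baseChangeSnd c (specMapOver φ) ⁻¹ᵁ cov.opensR R i = cov.opensR R' i := by
  simp only [opensR, Scheme.Hom.image_top_eq_opensRange, opensRange_jR, ← Scheme.Hom.comp_preimage]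
  rw [show baseChangeSnd c (specMapOver φ) ≫ pullback.fst c (specT k R) =
    pullback.fst c (specT k R') from
    (pullback.lift_fst _ _ _).trans (Category.comp_id _)]

theorem preimage_opens01 :
    baseChangeSnd c (specMapOver φ) ⁻¹ᵁ cov.opens01 R = cov.opens01 R' := by
  rw [opens01_eq_inf, opens01_eq_inf, ← preimage_opensR cov φ 0, ← preimage_opensR cov φ 1]
  rfl

variable (L : (pullback c (specT k R)).Modules)

/-- The pull-back of the sections over the overlap. -/
def sec01Map : cov.Sec01 L →+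
    cov.Sec01 ((Scheme.Modules.pullback (baseChangeSnd c (specMapOver φ))).obj L) :=
  AddMonoidHom.mk'
    (fun s => mres ((Scheme.Modules.pullback (baseChangeSnd c (specMapOver φ))).obj L)
      (cov.preimage_opens01 φ).ge (pullSec (baseChangeSnd c (specMapOver φ)) L (cov.opens01 R) s))
    fun s t => (congrArg _ (map_add
      (((Scheme.Modules.pullbackPushforwardAdjunction
        (baseChangeSnd c (specMapOver φ))).unit.app L).app
        (cov.opens01 R)).hom s t)).trans (map_add _ _ _)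

theorem sec01Map_smul (a : cov.D.A01 R) (m : cov.Sec01 L) :
    cov.sec01Map φ L (a • m) = cov.D.mapA01 φ a • cov.sec01Map φ L m := by
  let m' : Γ(L, cov.opens01 R) := m
  show mres _ (cov.preimage_opens01 φ).ge (pullSec _ L _ (chartFun (cov.jR01 R) a • m')) =
    chartFun (cov.jR01 R') (cov.D.mapA01 φ a) • mres _ (cov.preimage_opens01 φ).ge
      (pullSec _ L _ m')
  rw [pullSec_smul, mres_smul]
  congr 1
  exact rres_app_chartFun _ _ _ _ (cov.baseChange_jR01 φ) (cov.preimage_opens01 φ).ge a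

/-- The pull-back of the sections over a chart. -/
def chartMap (i : Fin 2) (s : Γ(L, cov.opensR R i)) :
    Γ((Scheme.Modules.pullback (baseChangeSnd c (specMapOver φ))).obj L, cov.opensR R' i) :=
  mres _ (cov.preimage_opensR φ i).ge
    (pullSec (baseChangeSnd c (specMapOver φ)) L (cov.opensR R i) s)

theorem sec01Map_secRes (i : Fin 2) (s : Γ(L, cov.opensR R i)) :
    cov.sec01Map φ L (cov.secRes L i s) =
      cov.secRes ((Scheme.Modules.pullback (baseChangeSnd c (specMapOver φ))).obj L) i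
        (cov.chartMap φ L i s) := by
  show mres _ _ (pullSec _ L _ (mres L _ s)) = mres _ _ (mres _ _ _)
  rw [pullSec_mres, mres_mres, mres_mres]

theorem isAffineOpen_opensR (i : Fin 2) : IsAffineOpen (cov.opensR R i) := by
  rw [opensR, Scheme.Hom.image_top_eq_opensRange]
  exact isAffineOpen_opensRange (cov.jR R i)

theorem span_sec01Map (hL : Scheme.Modules.IsInvertible L) (i : Fin 2) :
    Submodule.span (cov.D.A R' i) (cov.sec01Map φ L '' (cov.secLattice L i : Set (cov.Sec01 L))) =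
      cov.secLattice ((Scheme.Modules.pullback (baseChangeSnd c (specMapOver φ))).obj L) i := by
  set g := baseChangeSnd c (specMapOver φ)
  set Q := (Scheme.Modules.pullback g).obj L
  refine le_antisymm (Submodule.span_le.mpr ?_) ?_
  · rintro _ ⟨_, ⟨s, rfl⟩, rfl⟩
    exact ⟨_, (cov.sec01Map_secRes φ L i s).symm⟩
  rintro _ ⟨t, rfl⟩
  have haff : IsAffineOpen (g ⁻¹ᵁ cov.opensR R i) := by
    rw [preimage_opensR]
    exact cov.isAffineOpen_opensR i
  have ht : mres Q (cov.preimage_opensR φ i).le t ∈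
      Submodule.span Γ(pullback c (specT k R'), g ⁻¹ᵁ cov.opensR R i)
          (Set.range (pullSec g L (cov.opensR R i))) := by
    rw [span_range_pullSec g hL (cov.isAffineOpen_opensR i) haff]
    trivial
  have key : ∀ z ∈ Submodule.span Γ(pullback c (specT k R'), g ⁻¹ᵁ cov.opensR R i)
      (Set.range (pullSec g L (cov.opensR R i))),
      cov.secRes Q i (mres Q (cov.preimage_opensR φ i).ge z) ∈
        Submodule.span (cov.D.A R' i)
            (cov.sec01Map φ L '' (cov.secLattice L i : Set (cov.Sec01 L))) := by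
    intro z hz
    induction hz using Submodule.span_induction with
    | mem x hx =>
      obtain ⟨s, rfl⟩ := hx
      exact Submodule.subset_span ⟨_, ⟨s, rfl⟩, cov.sec01Map_secRes φ L i s⟩
    | zero => simp
    | add x y _ _ hx hy => simpa only [map_add] using add_mem hx hy
    | smul a x _ hx =>
      obtain ⟨a', ha'⟩ := (chartFun_bijective (cov.jR R' i)).2
        (rres _ (cov.preimage_opensR φ i).ge a)
      rw [mres_smul, ← ha', secRes_smul]
      exact Submodule.smul_mem _ _ hx
  have := key _ ht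
  rwa [mres_mres, mres_self] at this

/-- Pull-back of sheaves is base change. -/
def secPullback (hL : Scheme.Modules.IsInvertible L) :
    LB.Mor φ (cov.sec L hL)
      (cov.sec ((Scheme.Modules.pullback (baseChangeSnd c (specMapOver φ))).obj L)
        (hL.pullback _)) where
  f := cov.sec01Map φ L
  map_smul := cov.sec01Map_smul φ L
  span_map := cov.span_sec01Map φ L hL

end CurveCover

end Fermat.Agent.Jac

end
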