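import Fermat.Agent.Jac.Field
import Fermat.Agent.Jac.Scheme.Sec.Pullback

/-!
# Degree zero of a sheaf and of its algebraic line bundle
-/

set_option autoImplicit false

universe u

noncomputable section

open CategoryTheory CategoryTheory.Limits AlgebraicGeometry AlgebraicGeometry.RelPicard
  NeronModelInfra
  TensorProduct

namespace Fermat.Agent.Jac.CurveCover

variable {k : Type u} [Field k] {C : Scheme.{u}} {c : C ⟶ Spec (CommRingCat.of k)}
  {ε : SchemeHomOver (𝟙 (Spec (CommRingCat.of k))) c} (cov : CurveCover c ε)
variable {R : Type u} [CommRing R] [Algebra k R]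

/-- Every geometric fibre of the sheaf has degree zero. -/
def DegZero {T : Scheme.{u}} (t : T ⟶ Spec (CommRingCat.of k)) (L : (pullback c t).Modules)
    (hL : Scheme.Modules.IsInvertible L) : Prop :=
  ∀ (K : Type u) [Field K] [IsAlgClosed K] [Algebra k K] (s : SchemeHomOver (specT k K) t),
    (cov.sec ((Scheme.Modules.pullback (baseChangeSnd c s)).obj L) (hL.pullback _)).deg = 0

/-- A sheaf has degree zero exactly when its algebraic bundle has fibrewise degree zero. -/
theorem degZero_spec_iff (L : (pullback c (specT k R)).Modules)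
    (hL : Scheme.Modules.IsInvertible L) :
    cov.DegZero (specT k R) L hL ↔ (cov.sec L hL).FibreDegZero := by
  constructor
  · intro h K _ _ _ φ L' g
    rw [← LB.deg_congr ⟨(cov.secPullback φ L hL).targetIso g⟩]
    exact h K (specMapOver φ)
  · intro h K _ _ _ s
    obtain ⟨φ, rfl⟩ := exists_eq_specMapOver s
    exact h K φ _ (cov.secPullback φ L hL)

end Fermat.Agent.Jac.CurveCover

end
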