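import Fermat.Agent.Jac.Scheme.Sec.Basic
import Fermat.Agent.Jac.ModGlue.Glue

/-!
# Invertible sheaves on the curve over an affine base are algebraic line bundles
-/

set_option autoImplicit false

universe u

noncomputable section

open CategoryTheory CategoryTheory.Limits AlgebraicGeometry TensorProduct NeronModelInfra
open Fermat.Agent.Jac.ModGlue

namespace Fermat.Agent.Jac.CurveCover

variable {k : Type u} [Field k] {C : Scheme.{u}} {c : C ⟶ Spec (CommRingCat.of k)}
  {ε : SchemeHomOver (𝟙 (Spec (CommRingCat.of k))) c} (cov : CurveCover c ε)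
variable {R : Type u} [CommRing R] [Algebra k R]

variable (R) in
theorem opensR_cover : (⊤ : (pullback c (specT k R)).Opens) ≤ ⨆ i, cov.opensR R i := by
  rw [← cov.jR_covers R, sup_le_iff, ← Scheme.Hom.image_top_eq_opensRange,
    ← Scheme.Hom.image_top_eq_opensRange]
  exact ⟨le_iSup (cov.opensR R) 0, le_iSup (cov.opensR R) 1⟩

theorem inf_le_opens01 {i l : Fin 2} (h : i ≠ l) :
    cov.opensR R i ⊓ cov.opensR R l ≤ cov.opens01 R := by
  rw [cov.opens01_eq_inf R]
  rcases (show i = 0 ∧ l = 1 ∨ i = 1 ∧ l = 0 by omega) with ⟨rfl, rfl⟩ | ⟨rfl, rfl⟩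
  exacts [le_rfl, le_of_eq (inf_comm _ _)]

variable {P Q : (pullback c (specT k R)).Modules} {V : (pullback c (specT k R)).Opens}

/-- A local morphism on the overlap is a linear map of the sections there. -/
def localMap01 (φ : LocalHom V P Q) (h : cov.opens01 R ≤ V) :
    cov.Sec01 P →ₗ[cov.D.A01 R] cov.Sec01 Q where
  toFun := φ.app (cov.opens01 R) h
  map_add' := map_add _
  map_smul' a s := φ.map_smul (cov.opens01 R) h (chartFun (cov.jR01 R) a) s

theorem localMap01_secRes (φ : LocalHom V P Q) {i : Fin 2} (h : cov.opensR R i ≤ V)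
    (s : Γ(P, cov.opensR R i)) :
    cov.localMap01 φ ((cov.opens01_le R i).trans h) (cov.secRes P i s) =
      cov.secRes Q i (φ.app (cov.opensR R i) h s) :=
  φ.naturality _ _ (cov.opens01_le R i) h s

/-- A local isomorphism on the overlap is a linear equivalence of the sections there. -/
def localIso01 (θ : LocalIso V P Q) (h : cov.opens01 R ≤ V) :
    cov.Sec01 P ≃ₗ[cov.D.A01 R] cov.Sec01 Q where
  __ := cov.localMap01 θ.hom h
  invFun := cov.localMap01 θ.inv h
  left_inv s := congr(($θ.hom_inv_id).app (cov.opens01 R) h s)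
  right_inv s := congr(($θ.inv_hom_id).app (cov.opens01 R) h s)

theorem localIso01_mem_iff (θ : LocalIso V P Q) {i : Fin 2} (h : cov.opensR R i ≤ V)
    (m : cov.Sec01 P) :
    cov.localIso01 θ ((cov.opens01_le R i).trans h) m ∈ cov.secLattice Q i ↔
      m ∈ cov.secLattice P i := by
  constructor
  · rintro ⟨t, ht⟩
    refine ⟨θ.inv.app (cov.opensR R i) h t, ?_⟩
    rw [← cov.localMap01_secRes θ.inv h, ht]
    exact (cov.localIso01 θ _).symm_apply_apply m
  · rintro ⟨s, rfl⟩
    exact ⟨θ.hom.app (cov.opensR R i) h s, (cov.localMap01_secRes θ.hom h s).symm⟩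

/-- Morphisms over the overlap are determined by the sections there. -/
theorem localHom_ext_opens01 (hP : HasGens (cov.jR01 R).opensRange P)
    {φ ψ : LocalHom (cov.opens01 R) P Q}
    (h : ∀ m : Γ(P, cov.opens01 R), φ.app _ le_rfl m = ψ.app _ le_rfl m) : φ = ψ := by
  have hle : (cov.jR01 R).opensRange ≤ cov.opens01 R := (Scheme.Hom.image_top_eq_opensRange _).ge
  have hge : cov.opens01 R ≤ (cov.jR01 R).opensRange := (Scheme.Hom.image_top_eq_opensRange _).le
  have := isQuasicoherent_restrict (A₀ := CommRingCat.of (cov.D.A01 R)) (cov.jR01 R) hP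
  exact congrArg (LocalHom.mono hge)
    (localHom_ext_top (cov.jR01 R) (φ := φ.mono hle) (ψ := ψ.mono hle) h)

/-- Sheaves are isomorphic exactly when their algebraic bundles are. -/
theorem sec_isomorphic_iff (L L' : (pullback c (specT k R)).Modules)
    (hL : Scheme.Modules.IsInvertible L) (hL' : Scheme.Modules.IsInvertible L') :
    Nonempty (L ≅ L') ↔ (cov.sec L hL).Isomorphic (cov.sec L' hL') := by
  constructor
  · rintro ⟨e⟩
    exact ⟨⟨cov.localIso01 (LocalIso.ofIso ⊤ e) le_top,
      fun i m => cov.localIso01_mem_iff (LocalIso.ofIso ⊤ e) (i := i) le_top m⟩⟩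
  rintro ⟨E⟩
  let F : cov.Sec01 L ≃ₗ[cov.D.A01 R] cov.Sec01 L' := E.e
  have hF : ∀ i m, F m ∈ cov.secLattice L' i ↔ m ∈ cov.secLattice L i := E.mem_iff
  -- The isomorphism restricts to the sections over each chart.
  have ex : ∀ i (s : Γ(L, cov.opensR R i)), ∃ t : Γ(L', cov.opensR R i),
      cov.secRes L' i t = F (cov.secRes L i s) := fun i s => (hF i _).2 ⟨s, rfl⟩
  choose f hf using ex
  have hθ : ∀ i, ∃ θ : LocalIso (cov.opensR R i) L L',
      ∀ m : cov.Sec01 L, cov.localMap01 θ.hom (cov.opens01_le R i) m = F m := by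
    intro i
    have inj := cov.secRes_injective L' hL' i
    have hb : Function.Bijective (f i) := by
      refine ⟨fun s t hst => cov.secRes_injective L hL i (F.injective ?_), fun t => ?_⟩
      · rw [← hf, ← hf, hst]
      · obtain ⟨s, hs⟩ := (hF i (F.symm (cov.secRes L' i t))).1 ⟨t, (F.apply_symm_apply _).symm⟩
        exact ⟨s, inj (by rw [hf, hs, F.apply_symm_apply])⟩
    let e : Γ(L, cov.opensR R i) ≃+ Γ(L', cov.opensR R i) :=
      AddEquiv.ofBijective (AddMonoidHom.mk' (f i) fun s t => inj (by
        rw [hf, map_add, map_add, map_add, hf, hf])) hb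
    -- So it gives isomorphisms of the sheaves on the charts.
    obtain ⟨θ, hθ⟩ := exists_localIso_chart (A₀ := CommRingCat.of (cov.D.A R i)) (cov.jR R i)
      (hasGens_of_isInvertible hL _) (hasGens_of_isInvertible hL' _) e fun a s => inj (by
        show cov.secRes L' i (f i (chartFun (cov.jR R i) a • s)) =
          cov.secRes L' i (chartFun (cov.jR R i) a • f i s)
        rw [hf, cov.secRes_smul, cov.secRes_smul, hf]
        exact (F.restrictScalars (cov.D.A R i)).map_smul a _)
    refine ⟨θ.mono (Scheme.Hom.image_top_eq_opensRange _).le, fun m => ?_⟩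
    refine congr($(LinearMap.ext_on (g := F.toLinearMap) (cov.span_secLattice L hL i) ?_) m)
    rintro _ ⟨s, rfl⟩
    rw [cov.localMap01_secRes _ le_rfl]
    exact (congrArg (cov.secRes L' i) (hθ s)).trans (hf i s)
  choose θ hθ using hθ
  -- They agree on the overlap, hence glue.
  obtain ⟨Θ, -⟩ := LocalIso.exists_glue (cov.opensR R) (fun _ => le_top) (cov.opensR_cover R) θ
    fun i l => by
      by_cases h : i = l
      · subst h; rfl
      · have key : (θ i).hom.mono (cov.opens01_le R i) = (θ l).hom.mono (cov.opens01_le R l) :=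
          cov.localHom_ext_opens01 (hasGens_of_isInvertible hL _) fun m =>
            (hθ i m).trans (hθ l m).symm
        exact congrArg (LocalHom.mono (cov.inf_le_opens01 h)) key
  exact ⟨Θ.toIso⟩

/-- The algebraic bundle of the structure sheaf is trivial. -/
theorem sec_unit :
    (cov.sec (SheafOfModules.unit (pullback c (specT k R)).ringCatSheaf)
      (Scheme.Modules.isInvertible_unit _)).Isomorphic (LB.unit (D := cov.D) R) := by
  let e : cov.D.A01 R →ₗ[cov.D.A01 R] cov.Sec01 (oMod (pullback c (specT k R))) :=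
    { toFun := fun a => oSec (chartFun (cov.jR01 R) a)
      map_add' := fun a b => congrArg oSec (map_add _ a b)
      map_smul' := fun a b => congrArg oSec (map_mul _ a b) }
  have hb : Function.Bijective e :=
    (Function.bijective_iff_has_inverse.2 ⟨oFun, fun _ => rfl, fun _ => rfl⟩).comp
      (chartFun_bijective (cov.jR01 R))
  have hres : ∀ i (b : cov.D.A R i), cov.secRes (oMod (pullback c (specT k R))) i
      (oSec (chartFun (cov.jR R i) b)) = e (algebraMap (cov.D.A R i) (cov.D.A01 R) b) := fun i b =>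
    congrArg oSec (rres_chartFun _ _ _ (cov.jR01_eq R i) (cov.opens01_le R i) b)
  refine LB.Isomorphic.symm ⟨⟨LinearEquiv.ofBijective e hb, fun i m => ?_⟩⟩
  constructor
  · rintro ⟨s, hs⟩
    obtain ⟨b, hb'⟩ := (chartFun_bijective (cov.jR R i)).2 (oFun s)
    refine ⟨b, hb.1 ?_⟩
    exact ((hres i b).symm.trans (congrArg (cov.secRes _ i) (congrArg oSec hb'))).trans hs
  · rintro ⟨b, rfl⟩
    exact ⟨oSec (chartFun (cov.jR R i) b), hres i b⟩

/-- The sheaf of one chart of an algebraic line bundle. -/
theorem exists_chartSheaf (N : LB cov.D R) (i : Fin 2) :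
    ∃ P : (pullback c (specT k R)).Modules, HasGens (cov.jR R i).opensRange P ∧
      (∀ W, Function.Bijective (mres P (inf_le_left : W ⊓ cov.opensR R i ≤ W))) ∧
      ∃ β : cov.Sec01 P ≃ₗ[cov.D.A01 R] N.M, ∀ m, β m ∈ N.L i ↔ m ∈ cov.secLattice P i := by
  obtain ⟨P, hP, hsupp, α, hα⟩ :=
    exists_chart_model (A₀ := CommRingCat.of (cov.D.A R i)) (cov.jR R i) (N.L i)
  refine ⟨P, hP, hsupp, ?_⟩
  let S := Submonoid.powers (cov.D.tR R i)
  let g : N.L i →ₗ[cov.D.A R i] cov.Sec01 P :=
    { toFun := fun x => cov.secRes P i (α x)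
      map_add' := fun x y => by rw [map_add, map_add]
      map_smul' := fun a x => (congrArg (cov.secRes P i) (hα a x)).trans (cov.secRes_smul P i a _) }
  have hunits : ∀ (T : Type u) [AddCommGroup T] [Module (cov.D.A01 R) T] [Module (cov.D.A R i) T]
      [IsScalarTower (cov.D.A R i) (cov.D.A01 R) T] (x : S),
      IsUnit (algebraMap (cov.D.A R i) (Module.End (cov.D.A R i) T) x) := by
    rintro T _ _ _ _ ⟨_, n, rfl⟩
    exact (Module.End.isUnit_iff _).2 (CurveData.bijective_pow_smul n)
  have hg : IsLocalizedModule S g :=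
    { map_units := hunits _
      surj := fun y => by
        obtain ⟨n, s, hs⟩ := cov.exists_secRes_eq P i hP y
        refine ⟨(α.symm s, ⟨_, n, rfl⟩), ?_⟩
        show cov.D.tR R i ^ n • y = cov.secRes P i (α (α.symm s))
        rw [AddEquiv.apply_symm_apply, hs]
      exists_of_eq := fun h =>
        ⟨1, by rw [α.injective (cov.secRes_injective_of_hasGens P i hP h)]⟩ }
  have hs : IsLocalizedModule S (N.L i).subtype :=
    { map_units := hunits _
      surj := fun y => by
        obtain ⟨n, hn⟩ := CurveData.exists_pow_smul_mem_of_mem_span (S := N.L i) (m := y)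
          (N.span_L i ▸ Submodule.mem_top)
        exact ⟨(⟨_, hn⟩, ⟨_, n, rfl⟩), rfl⟩
      exists_of_eq := fun h => ⟨1, by rw [Subtype.ext h]⟩ }
  let β₀ : cov.Sec01 P ≃ₗ[cov.D.A R i] N.M := IsLocalizedModule.linearEquiv S g (N.L i).subtype
  refine ⟨β₀.extendScalarsOfIsLocalization S (cov.D.A01 R), fun m => ?_⟩
  have hβ : ∀ x, β₀ (g x) = x.1 := fun x => IsLocalizedModule.linearEquiv_apply S g _ x
  show β₀ m ∈ N.L i ↔ _
  constructor
  · intro h
    exact ⟨α ⟨β₀ m, h⟩, β₀.injective (hβ ⟨β₀ m, h⟩)⟩
  · rintro ⟨s, rfl⟩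
    rw [← α.apply_symm_apply s]
    exact (hβ (α.symm s)).symm ▸ (α.symm s).2

/-- Every algebraic bundle comes from an invertible sheaf. -/
theorem exists_sec (N : LB cov.D R) :
    ∃ (L : (pullback c (specT k R)).Modules) (hL : Scheme.Modules.IsInvertible L),
      (cov.sec L hL).Isomorphic N := by
  -- The lattices give sheaves on the two charts, identified on the overlap.
  choose P hP hsupp β hβ using fun a : ULift.{u} (Fin 2) => cov.exists_chartSheaf N a.down
  let V : ULift.{u} (Fin 2) → (pullback c (specT k R)).Opens := fun a => cov.opensR R a.down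
  have h01 : ∀ a b, cov.opens01 R ≤ V a ⊓ V b := fun a b =>
    le_inf (cov.opens01_le R _) (cov.opens01_le R _)
  have hP01 : ∀ a, HasGens (cov.jR01 R).opensRange (P a) := fun a => (hP a).mono
    ((Scheme.Hom.image_top_eq_opensRange _).ge.trans
      ((cov.opens01_le R _).trans (Scheme.Hom.image_top_eq_opensRange _).le))
  have hθ : ∀ a b, ∃ θ : LocalIso (V a ⊓ V b) (P a) (P b),
      (∀ m : cov.Sec01 (P a), β b (cov.localMap01 θ.hom (h01 a b) m) = β a m) ∧
      ∀ h : a = b, θ.hom = h ▸ LocalHom.id _ _ := by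
    intro a b
    by_cases h : a = b
    · subst h
      exact ⟨LocalIso.refl _ _, fun _ => rfl, fun _ => rfl⟩
    · let e := (β a).trans (β b).symm
      obtain ⟨θ, hθ⟩ := exists_localIso_chart (A₀ := CommRingCat.of (cov.D.A01 R)) (cov.jR01 R)
        (hP01 a) (hP01 b) e.toAddEquiv fun r m => e.map_smul r m
      refine ⟨θ.mono ((cov.inf_le_opens01 fun hd => h (ULift.ext a b hd)).trans
        (Scheme.Hom.image_top_eq_opensRange _).le), fun m => ?_, fun h' => absurd h' h⟩
      exact (congrArg (β b) (hθ m)).trans ((β b).apply_symm_apply _)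
  choose θ hθ hθid using hθ
  have hself : ∀ a, (θ a a).hom = LocalHom.id _ _ := fun a => hθid a a rfl
  -- Glue them; the bundle of the result is `N`.
  let D : GlueDatum (pullback c (specT k R)) :=
    { ι := ULift.{u} (Fin 2)
      V := V
      cover := top_le_iff.1 ((cov.opensR_cover R).trans (iSup_le fun i => le_iSup V ⟨i⟩))
      P := P
      supp := hsupp
      θ := θ
      θ_self := hself
      θ_trans := fun a b d W hab hbd had s => by
        by_cases h1 : a = b
        · subst h1
          exact congrArg (fun z => (θ a d).hom.app W hbd z) congr(($(hself a)).app W hab s)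
        by_cases h2 : b = d
        · subst h2
          exact congr(($(hself b)).app W hbd ((θ a b).hom.app W hab s))
        have hW : W ≤ cov.opens01 R :=
          hab.trans (cov.inf_le_opens01 fun hd => h1 (ULift.ext a b hd))
        have key : ((θ a b).hom.mono (h01 a b)).comp ((θ b d).hom.mono (h01 b d)) =
            (θ a d).hom.mono (h01 a d) :=
          cov.localHom_ext_opens01 (hP01 a) fun m => (β d).injective
            (((hθ b d _).trans (hθ a b m)).trans (hθ a d m).symm)
        exact congr(($key).app W hW s) }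
  have hgens : HasGens ⊤ D.glued := HasGens.of_cover V (fun _ => le_top)
    ((cov.opensR_cover R).trans (iSup_le fun i => le_iSup V ⟨i⟩)) fun a =>
      ((hP a).mono (Scheme.Hom.image_top_eq_opensRange _).le).of_localIso (D.projIso a).symm
  refine ⟨D.glued, isInvertible_of_hasGens hgens, ?_⟩
  let F : ∀ a, cov.Sec01 D.glued ≃ₗ[cov.D.A01 R] N.M := fun a =>
    (cov.localIso01 (D.projIso a) (cov.opens01_le R _)).trans (β a)
  have hF : ∀ a b m, F a m = F b m := fun a b m => by
    have h := congr(($(D.proj_comp_θ a b)).app (cov.opens01 R) (h01 a b) m)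
    exact (hθ a b _).symm.trans (congrArg (β b) h)
  refine ⟨⟨F ⟨0⟩, fun i m => ?_⟩⟩
  exact (Iff.of_eq (congrArg (· ∈ N.L i) (hF ⟨0⟩ ⟨i⟩ m))).trans <|
    (hβ ⟨i⟩ _).trans (cov.localIso01_mem_iff
      (D.projIso ⟨i⟩) le_rfl m)

end Fermat.Agent.Jac.CurveCover

end
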