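import Fermat.Agent.Jac.Scheme.Cover

/-!
# The rational section lands in the first chart
-/

set_option autoImplicit false

universe u

noncomputable section

open CategoryTheory CategoryTheory.Limits AlgebraicGeometry AlgebraicGeometry.RelPicard
  NeronModelInfra
  TensorProduct

namespace Fermat.Agent.Jac.CurveCover

variable {k : Type u} [Field k] {C : Scheme.{u}} {c : C ⟶ Spec (CommRingCat.of k)}
  {ε : SchemeHomOver (𝟙 (Spec (CommRingCat.of k))) c} (cov : CurveCover c ε)
variable (R : Type u) [CommRing R] [Algebra k R]

theorem evR_comp_includeRight :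
    ((cov.D.evR R).toRingHom.comp
      ((Algebra.TensorProduct.includeRight : cov.D.B 0 →ₐ[k] cov.D.A R 0) :
        cov.D.B 0 →+* cov.D.A R 0)) =
      (algebraMap k R).comp cov.D.ev.toRingHom := by
  ext b
  change cov.D.evR R (1 ⊗ₜ[k] b) = algebraMap k R (cov.D.ev b)
  refine Eq.trans ?_ (one_mul _)
  unfold CurveData.evR
  rw [Algebra.TensorProduct.lift_tmul]
  rfl

/-- The rigidifying section is the evaluation at the rational point followed by the first chart. -/
theorem rigSection_eq :
    rigSection c (specT k R) ε =
      Spec.map (CommRingCat.ofHom (cov.D.evR R).toRingHom) ≫ cov.jR R 0 := by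
  apply pullback.hom_ext
  · rw [rigSection, pullback.lift_fst, Category.assoc, jR_fst, ← Spec.map_comp_assoc,
      ← CommRingCat.ofHom_comp, evR_comp_includeRight, CommRingCat.ofHom_comp, Spec.map_comp_assoc,
      cov.ev_eq]
  · rw [rigSection, pullback.lift_snd, Category.assoc, jR_snd, ← Spec.map_comp,
      ← CommRingCat.ofHom_comp]
    rw [show (cov.D.evR R).toRingHom.comp (algebraMap R (cov.D.A R 0)) = RingHom.id R from
      (cov.D.evR R).comp_algebraMap]
    exact Spec.map_id _ |>.symm

end Fermat.Agent.Jac.CurveCover

end
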