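import Mathlib.RingTheory.PicardGroup
import Mathlib.Tactic

/-!
# Semilinear functionals on invertible modules
-/

set_option autoImplicit false

universe u

noncomputable section

open TensorProduct

namespace Fermat.Agent.Jac

/-- The kernel of a semilinear functional taking the value one is contained in the kernel of the
scalars times the module. -/
theorem mem_ker_smul_of_semilinear {A R M : Type u} [CommRing A] [CommRing R] [AddCommGroup M]
    [Module A M] [Module.Invertible A M] (π : A →+* R) (ψ : M →+ R)
    (hψ : ∀ (a : A) m, ψ (a • m) = π a * ψ m) {m₁ : M} (h₁ : ψ m₁ = 1) {m : M} (hm : ψ m = 0) :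
    m ∈ (RingHom.ker π • ⊤ : Submodule A M) := by
  have key : ∀ (f : Module.Dual A M) (x : M), f x • m ∈ (RingHom.ker π • ⊤ : Submodule A M) := by
    intro f x
    obtain ⟨c, hc⟩ := (Module.Invertible.toModuleEnd_bijective A M).2 (f.smulRight m)
    have h : ∀ z, c • z = f z • m := fun z => LinearMap.congr_fun hc z
    rw [← h x]
    refine Submodule.smul_mem_smul ?_ trivial
    have := congrArg ψ (h m₁)
    rw [hψ, hψ, h₁, hm, mul_one, mul_zero] at this
    exact RingHom.mem_ker.mpr this
  obtain ⟨T, hT⟩ := (Module.Invertible.bijective (R := A) (M := M)).2 1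
  have h2 : ∀ T : Module.Dual A M ⊗[A] M,
      contractLeft A M T • m ∈ (RingHom.ker π • ⊤ : Submodule A M) := by
    intro T
    induction T with
    | zero => simp
    | tmul f x => simpa using key f x
    | add a b ha hb => rw [map_add, add_smul]; exact add_mem ha hb
  simpa [hT] using h2 T

end Fermat.Agent.Jac

end
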