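import Fermat.Agent.Jac.Scheme.Sec.Basic
import Fermat.Agent.Jac.Scheme.Sec.Point
import Fermat.Agent.Jac.Scheme.Sec.RigAlg
import Fermat.Agent.Jac.ModGlue.Rigid
import Fermat.Agent.Jac.Scheme.Sec.PullbackGen

/-!
# Rigidifications along the rational section in terms of the algebraic bundle

The main theorems are `CurveCover.rigidified_iff` and `CurveCover.eq_id_of_rigSection`.
-/

set_option autoImplicit false

universe u

noncomputable section

open CategoryTheory CategoryTheory.Limits AlgebraicGeometry AlgebraicGeometry.RelPicard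
  NeronModelInfra
  TensorProduct TopologicalSpace
open Fermat.Agent.Jac.ModGlue

namespace Fermat.Agent.Jac

/-! ### Values at the section -/

theorem appLE_SpecMap_comp_chartFun {X : Scheme.{u}} {A B : Type u} [CommRing A] [CommRing B]
    (j : Spec (CommRingCat.of A) ⟶ X) [IsOpenImmersion j] (φ : A →+* B)
    (e : ⊤ ≤ (Spec.map (CommRingCat.ofHom φ) ≫ j) ⁻¹ᵁ (j ''ᵁ ⊤)) (a : A) :
    (Scheme.ΓSpecIso (CommRingCat.of B)).hom
      ((Spec.map (CommRingCat.ofHom φ) ≫ j).appLE (j ''ᵁ ⊤) ⊤ e (chartFun j a)) = φ a := by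
  have e1 : (⊤ : (Spec (CommRingCat.of A)).Opens) ≤ j ⁻¹ᵁ (j ''ᵁ ⊤) := (j.preimage_image_eq ⊤).ge
  have e2 : (⊤ : (Spec (CommRingCat.of B)).Opens) ≤ Spec.map (CommRingCat.ofHom φ) ⁻¹ᵁ ⊤ :=
    fun _ _ => trivial
  rw [← Scheme.Hom.appLE_comp_appLE (Spec.map (CommRingCat.ofHom φ)) j (j ''ᵁ ⊤) ⊤ ⊤ e1 e2]
  have h1 : (j.appIso ⊤).inv ≫ j.appLE (j ''ᵁ ⊤) ⊤ e1 = 𝟙 _ := by
    rw [Scheme.Hom.appIso_inv_appLE]
    exact (Spec (CommRingCat.of A)).presheaf.map_id _
  have h2 : (Spec.map (CommRingCat.ofHom φ)).appLE ⊤ ⊤ e2 =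
      (Spec.map (CommRingCat.ofHom φ)).appTop :=
    (congrArg ((Spec.map (CommRingCat.ofHom φ)).app ⊤ ≫ ·)
      ((Spec (CommRingCat.of B)).presheaf.map_id _)).trans (Category.comp_id _)
  have h3 : (Scheme.ΓSpecIso (CommRingCat.of A)).inv ≫ (Spec.map (CommRingCat.ofHom φ)).appTop ≫
      (Scheme.ΓSpecIso (CommRingCat.of B)).hom = CommRingCat.ofHom φ := by
    rw [Scheme.ΓSpecIso_naturality, Iso.inv_hom_id_assoc]
  simp only [CommRingCat.hom_comp, RingHom.comp_apply]
  have h4 : j.appLE (j ''ᵁ ⊤) ⊤ e1 (chartFun j a) = (Scheme.ΓSpecIso (CommRingCat.of A)).inv a :=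
    congr($h1 ((Scheme.ΓSpecIso (CommRingCat.of A)).inv a))
  rw [h4, h2]
  exact congr($h3 a)

namespace CurveCover

variable {k : Type u} [Field k] {C : Scheme.{u}} {c : C ⟶ Spec (CommRingCat.of k)}
  {ε : SchemeHomOver (𝟙 (Spec (CommRingCat.of k))) c} (cov : CurveCover c ε)
variable {R : Type u} [CommRing R] [Algebra k R] (L : (pullback c (specT k R)).Modules)

local notation "σR" => rigSection c (specT k R) ε

theorem top_le_preimage_opensR_zero : ⊤ ≤ σR ⁻¹ᵁ cov.opensR R 0 := by
  intro y _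
  rw [cov.rigSection_eq R]
  exact ⟨_, trivial, rfl⟩

/-- The value at the rational section of a function on the first chart. -/
def valR : Γ(pullback c (specT k R), cov.opensR R 0) →+* R :=
  (Scheme.ΓSpecIso (CommRingCat.of R)).hom.hom.comp
    ((rres (Spec (CommRingCat.of R)) (cov.top_le_preimage_opensR_zero)).comp ((σR).app _).hom)

theorem valR_chartFun (a : cov.D.A R 0) : cov.valR (chartFun (cov.jR R 0) a) = cov.D.evR R a := by
  have e : ∀ (g : Spec (CommRingCat.of R) ⟶ pullback c (specT k R)), g = σR →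
      ∀ e, (Scheme.ΓSpecIso (CommRingCat.of R)).hom (g.appLE (cov.opensR R 0) ⊤ e
        (chartFun (cov.jR R 0) a)) = cov.valR (chartFun (cov.jR R 0) a) := by
    rintro g rfl e
    rfl
  rw [← e _ (cov.rigSection_eq R).symm
    (by rw [← cov.rigSection_eq R]; exact cov.top_le_preimage_opensR_zero)]
  exact appLE_SpecMap_comp_chartFun _ _ _ a

variable {L} (hL : Scheme.Modules.IsInvertible L)

/-- The value of a rigidification on the sections of the first chart. -/
def rigVal (ψ : LocalHom ⊤ L (sO σR)) : Γ(L, cov.opensR R 0) →+ R :=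
  (Scheme.ΓSpecIso (CommRingCat.of R)).hom.hom.toAddMonoidHom.comp
    ((rres (Spec (CommRingCat.of R)) (cov.top_le_preimage_opensR_zero)).toAddMonoidHom.comp
      (AddMonoidHom.mk' (val ψ _ le_top) fun s t => map_add (ψ.app _ le_top) s t))

theorem rigVal_smul (ψ : LocalHom ⊤ L (sO σR)) (f : Γ(pullback c (specT k R), cov.opensR R 0))
    (s : Γ(L, cov.opensR R 0)) : cov.rigVal ψ (f • s) = cov.valR f * cov.rigVal ψ s := by
  show (Scheme.ΓSpecIso (CommRingCat.of R)).hom.hom (rres _ _ (val ψ _ le_top (f • s))) = _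
  rw [val_smul, map_mul, map_mul]
  rfl

theorem mem_basicOpen_of_isGen {ψ : LocalHom ⊤ L (sO σR)} (hψ : IsRig ψ)
    {D : (pullback c (specT k R)).Opens} (hD : D ≤ cov.opensR R 0) {s : Γ(L, cov.opensR R 0)}
    (hg : IsGen L D (mres L hD s)) {y : Spec (CommRingCat.of R)} (hy : σR y ∈ D) :
    cov.rigVal ψ s ∉ y.asIdeal := by
  have h := hψ.mem_basicOpen le_top hg hy
  rw [val_mres ψ D _ hD le_top, rres, Scheme.basicOpen_res] at h
  have h' : y ∈ (Spec (CommRingCat.of R)).basicOpen
      (rres (Spec (CommRingCat.of R)) cov.top_le_preimage_opensR_zero (val ψ _ le_top s)) := by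
    rw [rres, Scheme.basicOpen_res]
    exact ⟨trivial, h.2⟩
  rw [AlgebraicGeometry.basicOpen_eq_of_affine'] at h'
  exact h'

include hL in
theorem rigVal_surjective {ψ : LocalHom ⊤ L (sO σR)} (hψ : IsRig ψ) :
    Function.Surjective (cov.rigVal ψ) := by
  let I : Ideal R :=
    { carrier := Set.range (cov.rigVal ψ)
      add_mem' := by rintro _ _ ⟨s, rfl⟩ ⟨t, rfl⟩; exact ⟨s + t, map_add _ _ _⟩
      zero_mem' := ⟨0, map_zero _⟩
      smul_mem' := by
        rintro r _ ⟨s, rfl⟩
        refine ⟨chartFun (cov.jR R 0) (algebraMap R (cov.D.A R 0) r) • s, ?_⟩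
        rw [rigVal_smul, valR_chartFun, AlgHom.commutes]
        rfl }
  suffices I = ⊤ from fun r => (this ▸ Submodule.mem_top : r ∈ I)
  by_contra hI
  obtain ⟨m, hm, hIm⟩ := Ideal.exists_le_maximal I hI
  let y : Spec (CommRingCat.of R) := ⟨m, hm.isPrime⟩
  obtain ⟨D, hD, s, hyD, hg⟩ :=
    cov.exists_isGen L hL 0 (cov.top_le_preimage_opensR_zero (x := y) trivial)
  exact cov.mem_basicOpen_of_isGen hψ hD hg hyD (hIm ⟨s, rfl⟩)

/-! ### Rigidifications give trivialisations -/

/-- The sections of a chart as elements of the lattice. -/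
def latEquiv (i : Fin 2) : Γ(L, cov.opensR R i) ≃+ (cov.sec L hL).L i :=
  AddEquiv.ofBijective
    (AddMonoidHom.mk' (fun s => (⟨cov.secRes L i s, s, rfl⟩ : (cov.sec L hL).L i))
      fun s t => Subtype.ext (map_add _ s t))
    ⟨fun _ _ h => cov.secRes_injective L hL i (congrArg Subtype.val h),
      fun ⟨_, s, hs⟩ => ⟨s, Subtype.ext hs⟩⟩

theorem latEquiv_smul (i : Fin 2) (a : cov.D.A R i) (s : Γ(L, cov.opensR R i)) :
    cov.latEquiv hL i (chartFun (cov.jR R i) a • s) = a • cov.latEquiv hL i s :=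
  Subtype.ext (cov.secRes_smul L i a s)

/-- The functional of a rigidification on the lattice of the first chart. -/
def evFun (ψ : LocalHom ⊤ L (sO σR)) : (cov.sec L hL).L 0 →+ R :=
  (cov.rigVal ψ).comp (cov.latEquiv hL 0).symm.toAddMonoidHom

theorem evFun_smul (ψ : LocalHom ⊤ L (sO σR)) (a : cov.D.A R 0) (m : (cov.sec L hL).L 0) :
    cov.evFun hL ψ (a • m) = cov.D.evR R a * cov.evFun hL ψ m := by
  obtain ⟨s, rfl⟩ : ∃ s, cov.latEquiv hL 0 s = m := ⟨_, (cov.latEquiv hL 0).apply_symm_apply m⟩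
  show cov.rigVal ψ ((cov.latEquiv hL 0).symm (a • cov.latEquiv hL 0 s)) =
    cov.D.evR R a * cov.rigVal ψ ((cov.latEquiv hL 0).symm (cov.latEquiv hL 0 s))
  rw [← latEquiv_smul, AddEquiv.symm_apply_apply, AddEquiv.symm_apply_apply, rigVal_smul,
    valR_chartFun]

theorem evTrivial_of_isRig {ψ : LocalHom ⊤ L (sO σR)} (hψ : IsRig ψ) : (cov.sec L hL).EvTrivial :=
  ⟨cov.evFun hL ψ, cov.evFun_smul hL ψ,
    (cov.rigVal_surjective hL hψ).comp (cov.latEquiv hL 0).symm.surjective⟩

/-! ### Trivialisations give rigidifications -/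

/-- If `s` generates on `D`, and `α • s` is a section of value `1` for a functional compatible with
the evaluation, then `α` is a unit along the section over `D`. -/
private theorem isUnit_app_of_value_one (ψ : (cov.sec L hL).L 0 →+ R)
    (hψ : ∀ (a : cov.D.A R 0) (m : (cov.sec L hL).L 0), ψ (a • m) = cov.D.evR R a * ψ m)
    {m₁ : (cov.sec L hL).L 0} (h₁ : ψ m₁ = 1) {D : (pullback c (specT k R)).Opens}
    (hD : D ≤ cov.opensR R 0) {s : Γ(L, cov.opensR R 0)} (hg : IsGen L D (mres L hD s))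
    {α : Γ(pullback c (specT k R), D)}
    (hα : α • mres L hD s = mres L hD ((cov.latEquiv hL 0).symm m₁)) :
    IsUnit ((σR).app D α) := by
  set s₁ := (cov.latEquiv hL 0).symm m₁ with hs₁
  let m := cov.latEquiv hL 0 s
  let π : cov.D.A R 0 →+* R := (cov.D.evR R).toRingHom
  have hmem : m - algebraMap R (cov.D.A R 0) (ψ m) • m₁ ∈
      (RingHom.ker π • ⊤ : Submodule (cov.D.A R 0) ((cov.sec L hL).L 0)) :=
    mem_ker_smul_of_semilinear π ψ hψ h₁
      (by rw [map_sub, hψ, AlgHom.commutes, h₁, mul_one]; exact sub_self _)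
  let τ : Γ(pullback c (specT k R), cov.opensR R 0) →+* Γ(Spec (CommRingCat.of R), σR ⁻¹ᵁ D) :=
    ((σR).app D).hom.comp (rres _ hD)
  -- Functions with value zero at the section vanish along it.
  have hJ : ∀ a ∈ RingHom.ker π, τ (chartFun (cov.jR R 0) a) = 0 := by
    intro a ha
    have h0 : rres (Spec (CommRingCat.of R)) cov.top_le_preimage_opensR_zero
        ((σR).app _ (chartFun (cov.jR R 0) a)) = 0 :=
      (Scheme.ΓSpecIso (CommRingCat.of R)).commRingCatIsoToRingEquiv.injective
        (((cov.valR_chartFun a).trans (RingHom.mem_ker.mp ha)).trans (map_zero _).symm)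
    show (σR).app D (rres _ hD _) = 0
    rw [app_rres]
    have h' := congrArg (rres (Spec (CommRingCat.of R)) (le_top : σR ⁻¹ᵁ D ≤ ⊤)) h0
    rwa [rres_rres, map_zero] at h'
  obtain ⟨δ, hδ : δ • mres L hD s =
      mres L hD ((cov.latEquiv hL 0).symm (m - algebraMap R (cov.D.A R 0) (ψ m) • m₁))⟩ :=
    (hg D le_rfl).2 _ |>.imp fun a ha => by simpa using ha
  have hinj : Function.Injective fun a : Γ(pullback c (specT k R), D) => a • mres L hD s :=
    fun a b hab => (hg D le_rfl).1 (by simpa using hab)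
  -- So coefficients on `s` of sections in the kernel of `ψ` vanish along the section.
  have hall : ∀ x ∈ (RingHom.ker π • ⊤ : Submodule (cov.D.A R 0) ((cov.sec L hL).L 0)),
      ∀ γ, γ • mres L hD s = mres L hD ((cov.latEquiv hL 0).symm x) → (σR).app D γ = 0 := by
    intro x hx
    refine Submodule.smul_induction_on hx (fun a ha z _ γ hγ => ?_) (fun x₁ x₂ h₁ h₂ γ hγ => ?_)
    · obtain ⟨s', rfl⟩ : ∃ s', cov.latEquiv hL 0 s' = z :=
        ⟨_, (cov.latEquiv hL 0).apply_symm_apply z⟩
      rw [← latEquiv_smul, AddEquiv.symm_apply_apply, mres_smul] at hγ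
      obtain ⟨β, hβ : β • mres L hD s = mres L hD s'⟩ := (hg D le_rfl).2 (mres L hD s') |>.imp
        fun a ha => by simpa using ha
      rw [← hβ, smul_smul] at hγ
      rw [hinj hγ, map_mul]
      exact mul_eq_zero_of_left (hJ a ha) _
    · obtain ⟨γ₁, hγ₁ : γ₁ • mres L hD s = mres L hD ((cov.latEquiv hL 0).symm x₁)⟩ :=
        (hg D le_rfl).2 _ |>.imp fun a ha => by simpa using ha
      obtain ⟨γ₂, hγ₂ : γ₂ • mres L hD s = mres L hD ((cov.latEquiv hL 0).symm x₂)⟩ :=
        (hg D le_rfl).2 _ |>.imp fun a ha => by simpa using ha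
      rw [map_add, map_add, ← hγ₁, ← hγ₂, ← add_smul] at hγ
      rw [hinj hγ, map_add, h₁ γ₁ hγ₁, h₂ γ₂ hγ₂, add_zero]
  have hδ0 := hall _ hmem δ hδ
  -- So `1 = δ + ρ α` with `δ` zero along the section.
  have hsm : (cov.latEquiv hL 0).symm (algebraMap R (cov.D.A R 0) (ψ m) • m₁) =
      chartFun (cov.jR R 0) (algebraMap R (cov.D.A R 0) (ψ m)) • s₁ := by
    apply (cov.latEquiv hL 0).injective
    rw [latEquiv_smul, AddEquiv.apply_symm_apply, hs₁, AddEquiv.apply_symm_apply]
  rw [map_sub, hsm, AddEquiv.symm_apply_apply] at hδ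
  let ρ : Γ(pullback c (specT k R), D) :=
    rres _ hD (chartFun (cov.jR R 0) (algebraMap R (cov.D.A R 0) (ψ m)))
  have hdec : (1 : Γ(pullback c (specT k R), D)) = δ + ρ * α := by
    refine hinj ?_
    show (1 : Γ(pullback c (specT k R), D)) • mres L hD s = (δ + ρ * α) • mres L hD s
    rw [one_smul, add_smul, mul_smul, hα, hδ, ← mres_smul, ← map_add, sub_add_cancel]
  have h1 := congrArg ((σR).app D) hdec
  rw [map_one, map_add, hδ0, zero_add, map_mul] at h1
  exact .of_mul_eq_one _ ((mul_comm _ _).trans h1.symm)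

theorem exists_isGen_of_evTrivial (h : (cov.sec L hL).EvTrivial) :
    ∃ s₁ : Γ(L, cov.opensR R 0), ∀ y : Spec (CommRingCat.of R),
      ∃ (D : (pullback c (specT k R)).Opens) (hD : D ≤ cov.opensR R 0),
        σR y ∈ D ∧ IsGen L D (mres L hD s₁) := by
  obtain ⟨ψ, hψ, hsurj⟩ := h
  -- A section of value `1`: near each point it is a multiple `α` of a local generator, with `α`
  -- invertible along the section.
  obtain ⟨m₁, h₁⟩ := hsurj 1
  refine ⟨(cov.latEquiv hL 0).symm m₁, fun y => ?_⟩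
  obtain ⟨D, hD, s, hyD, hg⟩ :=
    cov.exists_isGen L hL 0 (cov.top_le_preimage_opensR_zero (x := y) trivial)
  set s₁ := (cov.latEquiv hL 0).symm m₁ with hs₁
  obtain ⟨α, hα : α • mres L hD s = mres L hD s₁⟩ := (hg D le_rfl).2 (mres L hD s₁) |>.imp
    fun a ha => by simpa using ha
  let w : Γ(Spec (CommRingCat.of R), σR ⁻¹ᵁ D) := (σR).app D α
  have hunit : y ∈ (Spec (CommRingCat.of R)).basicOpen w := by
    rw [Scheme.basicOpen_of_isUnit _ (cov.isUnit_app_of_value_one hL ψ hψ h₁ hD hg hα)]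
    exact hyD
  let D' : (pullback c (specT k R)).Opens := (pullback c (specT k R)).basicOpen α
  have hD'D : D' ≤ D := (pullback c (specT k R)).basicOpen_le α
  refine ⟨D', hD'D.trans hD, ?_, fun W hW => ?_⟩
  · have : y ∈ σR ⁻¹ᵁ D' := by rw [Scheme.preimage_basicOpen]; exact hunit
    exact this
  · have hu : IsUnit (rres (pullback c (specT k R)) (hW.trans hD'D) α) :=
      isUnit_rres_of_le _ _ hW
    have h2 : mres L hW (mres L (hD'D.trans hD) s₁) =
        rres _ (hW.trans hD'D) α • mres L (hW.trans hD'D) (mres L hD s) := by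
      rw [mres_mres, ← mres_smul, hα, mres_mres]
    simp only [h2, smul_smul]
    exact (hg W (hW.trans hD'D)).comp (hu.unit.mulRight_bijective)

theorem exists_isRig_of_evTrivial (h : (cov.sec L hL).EvTrivial) :
    ∃ φ : L ⟶ sO σR, IsRig (LocalHom.ofHom ⊤ φ) := by
  obtain ⟨s₁, hs₁⟩ := cov.exists_isGen_of_evTrivial hL h
  choose D hD hyD hgen using hs₁
  let D₁ : (pullback c (specT k R)).Opens := ⨆ y, D y
  have hD₁ : D₁ ≤ cov.opensR R 0 := iSup_le hD
  have hσ : ∀ (W : (pullback c (specT k R)).Opens), σR ⁻¹ᵁ W ≤ σR ⁻¹ᵁ (W ⊓ D₁) :=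
    fun W y hy => ⟨hy, Opens.mem_iSup.mpr ⟨y, hyD y⟩⟩
  -- `s₁` generates on the union of the `D y`, which contains the section; `Φ` sends a local
  -- section to its coefficient on `s₁`, restricted along the section.
  have hg₁ : IsGen L D₁ (mres L hD₁ s₁) :=
    .of_cover D (le_iSup D) le_rfl fun y => by rw [mres_mres]; exact hgen y
  have hcoef : ∀ (W : (pullback c (specT k R)).Opens) (x : Γ(L, W)),
      ∃ a : Γ(pullback c (specT k R), W ⊓ D₁),
        a • mres L (inf_le_right : W ⊓ D₁ ≤ D₁) (mres L hD₁ s₁) = mres L inf_le_left x :=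
    fun W x => (hg₁ (W ⊓ D₁) inf_le_right).2 (mres L inf_le_left x)
  choose coef hco using hcoef
  have huniq : ∀ (W : (pullback c (specT k R)).Opens) (x : Γ(L, W))
      (a : Γ(pullback c (specT k R), W ⊓ D₁)),
      a • mres L (inf_le_right : W ⊓ D₁ ≤ D₁) (mres L hD₁ s₁) = mres L inf_le_left x →
          coef W x = a :=
    fun W x a ha => (hg₁ (W ⊓ D₁) inf_le_right).1 ((hco W x).trans ha.symm)
  let out : ∀ W : (pullback c (specT k R)).Opens,
      Γ(pullback c (specT k R), W ⊓ D₁) →+* Γ(Spec (CommRingCat.of R), σR ⁻¹ᵁ W) :=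
    fun W => (rres _ (hσ W)).comp ((σR).app (W ⊓ D₁)).hom
  let Φ : LocalHom ⊤ L (sO σR) :=
    { app := fun W _ => AddMonoidHom.mk' (fun x => (oSec (out W (coef W x)) : Γ(oMod _, σR ⁻¹ᵁ W)))
        fun x x' => by
          rw [huniq W (x + x') (coef W x + coef W x') (by rw [add_smul, hco, hco, map_add]),
            map_add]
          rfl
      map_smul := fun W _ a x => by
        show oSec (out W (coef W (a • x))) = (σR).app W a * out W (coef W x)
        rw [huniq W (a • x) (rres _ inf_le_left a * coef W x) (by rw [mul_smul, hco, mres_smul]),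
          map_mul]
        refine congrArg (· * out W (coef W x)) ?_
        show rres _ (hσ W) ((σR).app _ (rres _ inf_le_left a)) = _
        rw [app_rres, rres_rres, rres_self]
      naturality := fun W' W hle _ x => by
        show out W' (coef W' (mres L hle x)) = rres _ ((σR).preimage_mono hle) (out W (coef W x))
        rw [huniq W' (mres L hle x) (rres _ (inf_le_inf_right D₁ hle) (coef W x)) (by
          have := congrArg (mres L (inf_le_inf_right D₁ hle : W' ⊓ D₁ ≤ W ⊓ D₁)) (hco W x)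
          simpa [mres_smul] using this)]
        show rres _ (hσ W') ((σR).app _ (rres _ (inf_le_inf_right D₁ hle) (coef W x))) =
          rres _ ((σR).preimage_mono hle) (rres _ (hσ W) ((σR).app _ (coef W x)))
        rw [app_rres, rres_rres, rres_rres] }
  refine ⟨Φ.toHom, fun y _ => ⟨D₁, le_top, mres L hD₁ s₁, ?_⟩⟩
  show y ∈ (Spec (CommRingCat.of R)).basicOpen (out D₁ (coef D₁ (mres L hD₁ s₁)))
  rw [huniq D₁ _ 1 (by rw [one_smul]), map_one,
    Scheme.basicOpen_of_isUnit _ isUnit_one]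
  exact Opens.mem_iSup.mpr ⟨y, hyD y⟩

variable (L) in
/-- A sheaf can be rigidified exactly when its algebraic bundle is trivial along the rational
point. -/
theorem rigidified_iff (hL : Scheme.Modules.IsInvertible L) :
    Nonempty ((Scheme.Modules.pullback σR).obj L ≅
      SheafOfModules.unit (Spec (CommRingCat.of R)).ringCatSheaf) ↔ (cov.sec L hL).EvTrivial := by
  constructor
  · rintro ⟨r⟩
    exact cov.evTrivial_of_isRig hL (isRig_of_pullback (V := ⊤) r.hom)
  · intro h
    obtain ⟨φ, hφ⟩ := cov.exists_isRig_of_evTrivial hL h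
    have := isIso_of_isRig (hasGens_of_isInvertible hL ⊤) φ hφ
    exact ⟨asIso (((Scheme.Modules.pullbackPushforwardAdjunction σR).homEquiv L (oMod _)).symm φ)⟩

/-! ### Automorphisms -/

variable (L) in
include cov in
/-- An automorphism of a rigidifiable sheaf trivial along the section is the identity. -/
theorem eq_id_of_rigSection (hL : Scheme.Modules.IsInvertible L)
    (hrig : Nonempty ((Scheme.Modules.pullback σR).obj L ≅
      SheafOfModules.unit (Spec (CommRingCat.of R)).ringCatSheaf))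
    (e : L ≅ L) (h : (Scheme.Modules.pullback σR).map e.hom = 𝟙 _) :
    e = Iso.refl L := by
  obtain ⟨r⟩ := hrig
  let adj := Scheme.Modules.pullbackPushforwardAdjunction σR
  let φ := adj.homEquiv L (oMod _) r.hom
  -- `e` fixes the trivialisation along the section, so the bundle automorphism it gives is trivial.
  have hφe : e.hom ≫ φ = φ := by
    rw [← adj.homEquiv_naturality_left, h, Category.id_comp]
  let ψ : LocalHom ⊤ L (sO σR) := LocalHom.ofHom ⊤ φ
  have hψ : IsRig ψ := isRig_of_pullback (V := ⊤) r.hom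
  let eh : Γ(L, cov.opens01 R) →+ Γ(L, cov.opens01 R) := (e.hom.app (cov.opens01 R)).hom
  let ei : Γ(L, cov.opens01 R) →+ Γ(L, cov.opens01 R) := (e.inv.app (cov.opens01 R)).hom
  let E : (cov.sec L hL).Iso (cov.sec L hL) :=
    { e :=
        { toFun := eh
          invFun := ei
          left_inv := fun x => congr(Scheme.Modules.Hom.app $e.hom_inv_id (cov.opens01 R) x)
          right_inv := fun x => congr(Scheme.Modules.Hom.app $e.inv_hom_id (cov.opens01 R) x)
          map_add' := map_add eh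
          map_smul' := fun a x => e.hom.app_smul (chartFun (cov.jR01 R) a) x }
      mem_iff := fun i x => by
        constructor
        · rintro ⟨s, hs⟩
          refine ⟨e.inv.app _ s, ?_⟩
          show mres L _ (e.inv.app _ s) = x
          rw [← app_mres e.inv]
          exact (congrArg (e.inv.app (cov.opens01 R)) hs).trans
            congr(Scheme.Modules.Hom.app $e.hom_inv_id (cov.opens01 R) x)
        · rintro ⟨s, rfl⟩
          exact ⟨e.hom.app _ s, (app_mres e.hom _ s).symm⟩ }
  have hEe := (cov.sec L hL).eq_refl_of_ev E (cov.evFun hL ψ) (cov.evFun_smul hL ψ)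
    ((cov.rigVal_surjective hL hψ).comp (cov.latEquiv hL 0).symm.surjective) fun m => by
      obtain ⟨s, rfl⟩ : ∃ s, cov.latEquiv hL 0 s = m := ⟨_, (cov.latEquiv hL 0).apply_symm_apply m⟩
      have hE : (⟨E.e (cov.latEquiv hL 0 s : (cov.sec L hL).M),
          (E.mem_iff 0 _).2 (cov.latEquiv hL 0 s).2⟩ :
          (cov.sec L hL).L 0) = cov.latEquiv hL 0 (e.hom.app _ s) :=
        Subtype.ext (app_mres e.hom _ s)
      refine (congrArg (cov.evFun hL ψ) hE).trans ?_
      show cov.rigVal ψ ((cov.latEquiv hL 0).symm (cov.latEquiv hL 0 (e.hom.app _ s))) =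
        cov.rigVal ψ ((cov.latEquiv hL 0).symm (cov.latEquiv hL 0 s))
      rw [AddEquiv.symm_apply_apply, AddEquiv.symm_apply_apply]
      show (Scheme.ΓSpecIso (CommRingCat.of R)).hom.hom (rres _ _ (φ.app _ (e.hom.app _ s))) =
        (Scheme.ΓSpecIso (CommRingCat.of R)).hom.hom (rres _ _ (φ.app _ s))
      congr 2
      exact congr(Scheme.Modules.Hom.app $hφe (cov.opensR R 0) s)
  -- So it fixes the sections over the charts.
  have hchart : ∀ i (s : Γ(L, cov.opensR R i)), e.hom.app _ s = s := fun i s =>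
    cov.secRes_injective L hL i ((app_mres e.hom _ s).symm.trans
      (LinearEquiv.congr_fun hEe (cov.secRes L i s)))
  have hg : ∀ x : ↥(pullback c (specT k R)), ∃ (i : Fin 2) (D : (pullback c (specT k R)).Opens)
      (hD : D ≤ cov.opensR R i) (s : Γ(L, cov.opensR R i)), x ∈ D ∧ IsGen L D (mres L hD s) := by
    intro x
    have hx : x ∈ cov.opensR R 0 ⊔ cov.opensR R 1 := by
      rw [opensR, opensR, Scheme.Hom.image_top_eq_opensRange, Scheme.Hom.image_top_eq_opensRange,
        cov.jR_covers R]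
      trivial
    rcases hx with hx | hx
    exacts [⟨0, cov.exists_isGen L hL 0 hx⟩, ⟨1, cov.exists_isGen L hL 1 hx⟩]
  choose i D hD s hxD hgen using hg
  refine Iso.ext (Scheme.Modules.hom_ext _ _ fun W => ?_)
  ext x
  show e.hom.app W x = x
  -- These generate locally.
  refine ModGlue.eq_of_cover L (fun z : ↥(pullback c (specT k R)) => W ⊓ D z) (fun z => inf_le_left)
    (fun z hz => Opens.mem_iSup.mpr ⟨z, hz, hxD z⟩) _ _ fun z => ?_
  obtain ⟨a, ha : a • mres L inf_le_right (mres L (hD z) (s z)) = mres L inf_le_left x⟩ :=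
    (hgen z (W ⊓ D z) inf_le_right).2 (mres L inf_le_left x)
  rw [← app_mres e.hom, ← ha, e.hom.app_smul, app_mres e.hom, app_mres e.hom, hchart]

end CurveCover

end Fermat.Agent.Jac

end
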