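import Fermat.Agent.Jac.ModGlue.Generator

/-!
# Invertible sheaves are quasi-coherent
-/

set_option autoImplicit false

universe u v₁ u₁

noncomputable section

open CategoryTheory CategoryTheory.Limits AlgebraicGeometry TopologicalSpace

namespace Fermat.Agent.Jac.ModGlue

variable {X : Scheme.{u}} {L : X.Modules}

theorem nonempty_iso_of_equiv {C D : Type*} [Category C] [Category D] (E : C ≌ D) {A B : C}
    (a : Nonempty (E.functor.obj A ≅ E.functor.obj B)) : Nonempty (A ≅ B) :=
  ⟨E.fullyFaithfulFunctor.preimageIso a.some⟩

theorem nonempty_overIso (U : X.Opens)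
    (e : (Scheme.Modules.pullback U.ι).obj L ≅ SheafOfModules.unit U.toScheme.ringCatSheaf) :
    Nonempty ((SheafOfModules.unit X.ringCatSheaf).over U ≅ L.over U) :=
  nonempty_iso_of_equiv (Scheme.Modules.overEquiv U)
    ⟨(Scheme.Modules.overFunctorEquiv U).app _ ≪≫ Scheme.Modules.restrictUnitIso _ ≪≫ e.symm ≪≫
      ((Scheme.Modules.restrictFunctorIsoPullback _).app L).symm ≪≫
      ((Scheme.Modules.overFunctorEquiv U).app L).symm⟩

/-- A sheaf of modules which is locally free of rank one is quasi-coherent. -/
theorem isQuasicoherent_of_isos {C : Type u₁} [Category.{v₁} C] {J : GrothendieckTopology C}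
    {R : Sheaf J RingCat.{u}} [∀ X, HasSheafify (J.over X) AddCommGrpCat.{u}]
    [∀ X, (J.over X).WEqualsLocallyBijective AddCommGrpCat.{u}]
    (M : SheafOfModules.{u} R) {I : Type u₁} (U : I → C) (hU : J.CoversTop U)
    (i : ∀ a, SheafOfModules.free (R := R.over (U a)) PUnit.{u+1} ≅ M.over (U a)) :
    M.IsQuasicoherent := by
  let q : SheafOfModules.LocalGeneratorsData M :=
    { I := I
      X := U
      coversTop := hU
      generators := fun x => (SheafOfModules.free.generatingSections PUnit.{u+1}).ofEpi (i x).hom }
  have : q.IsLocallyFreeData :=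
    { isIso := fun x => by
        show IsIso ((SheafOfModules.free.generatingSections PUnit.{u+1}).ofEpi (i x).hom).π
        rw [SheafOfModules.GeneratingSections.ofEpi_π]
        refine IsIso.comp_isIso' ?_ (Iso.isIso_hom (i x))
        rw [SheafOfModules.free.generatingSections_π]
        exact IsIso.id _ }
  exact q.quasiCoherentData.isQuasicoherent

/-- Invertible sheaves are quasi-coherent. -/
theorem isQuasicoherent_of_isInvertible (hL : Scheme.Modules.IsInvertible L) :
    L.IsQuasicoherent := by
  choose U hU e using hL.exists_trivialization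
  exact isQuasicoherent_of_isos L U
    ((Opens.coversTop_iff _ _).2 (eq_top_iff.2 fun x _ => Opens.mem_iSup.2 ⟨x, hU x⟩))
    fun x => coproductUniqueIso
      (fun _ : PUnit.{u+1} => SheafOfModules.unit (X.ringCatSheaf.over (U x))) ≪≫
      (nonempty_overIso (U x) (e x).some).some

end Fermat.Agent.Jac.ModGlue

end
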