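import Fermat.Agent.Jac.Algebra
import Fermat.Agent.Jac.Scheme.Sec.Quasi
import Fermat.Agent.Jac.ModGlue.Transport

/-!
# Invertible sheaves on an affine scheme and on an affine chart

Quasi-coherent sheaves on an affine scheme are governed by their global sections; for invertible
ones these form an invertible module, and conversely.

These are `invertible_top` and `hasGens_tilde`, and for a chart `invertible_chart` and
`exists_chart_model`.
-/

set_option autoImplicit false

universe u

noncomputable section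

open CategoryTheory AlgebraicGeometry TopologicalSpace
open Fermat.Agent.Jac.ModGlue

namespace Fermat.Agent.Jac

/-! ### Affine schemes -/

section Spec

variable {A : CommRingCat.{u}}

/-- The basic open of a ring element. -/
abbrev dOpen (f : A) : (Spec A).Opens := PrimeSpectrum.basicOpen f

variable (M : (Spec A).Modules)

/-- Restriction of global sections to a basic open. -/
def topRes (f : A) : Γ(M, ⊤) →ₗ[A] Γ(M, dOpen f) :=
  ((modulesSpecToSheaf.obj M).obj.map (dOpen f).leTop.op).hom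

instance isLocalizedModule_topRes [M.IsQuasicoherent] (f : A) :
    IsLocalizedModule.Away f (topRes M f) :=
  (isIso_fromTildeΓ_iff_isLocalizing M).1 inferInstance f

variable {M}

/-- A morphism out of a quasi-coherent sheaf is determined by global sections. -/
theorem hom_ext_top [M.IsQuasicoherent] {N : (Spec A).Modules} {φ ψ : M ⟶ N}
    (h : ∀ s : Γ(M, ⊤), φ.app ⊤ s = ψ.app ⊤ s) : φ = ψ := by
  have hΓ : moduleSpecΓFunctor.map φ = moduleSpecΓFunctor.map ψ := by
    ext s
    exact h s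
  have h1 := Scheme.Modules.fromTildeΓNatTrans.naturality φ
  have h2 := Scheme.Modules.fromTildeΓNatTrans.naturality ψ
  simp only [Functor.comp_map, hΓ, Functor.id_map] at h1
  simp only [Functor.comp_map, Functor.id_map] at h2
  exact (cancel_epi M.fromTildeΓ).1 (h1.symm.trans h2)

/-- A morphism of quasi-coherent sheaves bijective on global sections is an isomorphism. -/
theorem isIso_of_bijective_top {N : (Spec A).Modules} [M.IsQuasicoherent]
    [N.IsQuasicoherent] (φ : M ⟶ N) (h : Function.Bijective (φ.app ⊤)) : IsIso φ := by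
  have : IsIso ((modulesSpecToSheaf.map φ).hom.app (Opposite.op ⊤)) :=
    (ConcreteCategory.isIso_iff_bijective _).2 h
  have := isLocalizing_of_isIso_app_top this ((isIso_fromTildeΓ_iff_isLocalizing M).1 inferInstance)
    ((isIso_fromTildeΓ_iff_isLocalizing N).1 inferInstance)
  exact isIso_of_reflects_iso φ modulesSpecToSheaf

/-- Linear maps of global sections extend to morphisms. -/
theorem exists_hom_of_top [M.IsQuasicoherent] {N : (Spec A).Modules}
    (e : Γ(M, ⊤) →ₗ[A] Γ(N, ⊤)) : ∃ φ : M ⟶ N, ∀ s : Γ(M, ⊤), φ.app ⊤ s = e s := by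
  let e' : (modulesSpecToSheaf.obj M).presheaf.obj (Opposite.op ⊤) ⟶
      (modulesSpecToSheaf.obj N).presheaf.obj (Opposite.op ⊤) :=
    (ModuleCat.ofHom e : ModuleCat.of A Γ(M, ⊤) ⟶ ModuleCat.of A Γ(N, ⊤))
  have : IsIso M.fromTildeΓ := Scheme.Modules.isIso_fromTildeΓ_of_isQuasicoherent M
  refine ⟨inv M.fromTildeΓ ≫ tilde.map e' ≫ N.fromTildeΓ, fun s => ?_⟩
  have hfrom : ∀ (P : (Spec A).Modules) (t : Γ(P, ⊤)), P.fromTildeΓ.app ⊤
      (tilde.toOpen ((modulesSpecToSheaf.obj P).presheaf.obj (Opposite.op ⊤)) ⊤ t) = t := fun P t =>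
    congr($(Scheme.Modules.toOpen_fromTildeΓ_app P ⊤) t).trans (mres_self P le_rfl t)
  have hs := hfrom M s
  rw [← hs]
  show N.fromTildeΓ.app ⊤ ((tilde.map e').app ⊤ ((inv M.fromTildeΓ).app ⊤ (M.fromTildeΓ.app ⊤
    (tilde.toOpen ((modulesSpecToSheaf.obj M).presheaf.obj (Opposite.op ⊤)) ⊤ s)))) = _
  rw [show ∀ z, (inv M.fromTildeΓ).app ⊤ (M.fromTildeΓ.app ⊤ z) = z from fun z =>
    congr(Scheme.Modules.Hom.app $(IsIso.hom_inv_id M.fromTildeΓ) ⊤ z), hs]
  exact (congrArg (N.fromTildeΓ.app ⊤) congr($(tilde.toOpen_map_app e' ⊤) s)).trans (hfrom N (e s))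

/-- Linear equivalences of global sections extend to isomorphisms. -/
theorem exists_iso_of_top [M.IsQuasicoherent] {N : (Spec A).Modules}
    [N.IsQuasicoherent] (e : Γ(M, ⊤) ≃ₗ[A] Γ(N, ⊤)) :
    ∃ φ : M ≅ N, ∀ s : Γ(M, ⊤), φ.hom.app ⊤ s = e s := by
  obtain ⟨φ, hφ⟩ := exists_hom_of_top e.toLinearMap
  have := isIso_of_bijective_top φ ((funext hφ : (φ.app ⊤ : _ → _) = e) ▸ e.bijective)
  exact ⟨asIso φ, hφ⟩

/-- The global sections of an invertible sheaf on an affine scheme form an invertible module. -/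
theorem invertible_top [M.IsQuasicoherent] (hM : HasGens ⊤ M) : Module.Invertible A Γ(M, ⊤) := by
  refine invertible_of_local_generators fun p => ?_
  obtain ⟨W, g, hpW, -, hg⟩ := hM p trivial
  obtain ⟨_, ⟨h, rfl⟩, hph, hhW⟩ :=
    PrimeSpectrum.isTopologicalBasis_basic_opens.exists_subset_of_mem_open hpW W.2
  let g' : Γ(M, dOpen h) := mres M hhW g
  have hb : Function.Bijective fun a : Γ(Spec A, dOpen h) => a • g' :=
    hg (dOpen h) hhW
  obtain ⟨⟨f, _, n, rfl⟩, hf⟩ := IsLocalizedModule.surj (.powers h) (topRes M h) g'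
  replace hf : h ^ n • g' = topRes M h f := hf
  refine ⟨h, hph, f, fun x => ?_, fun a ha => ?_⟩
  · obtain ⟨a, ha⟩ := hb.2 (topRes M h x)
    obtain ⟨l, b, hl⟩ := IsLocalization.Away.surj h a
    have h1 : h ^ n • h ^ l • topRes M h x = b • topRes M h f := by
      rw [← hf, ← ha, smul_comm b]
      congr 1
      show h ^ l • (a • g') = b • g'
      rw [← algebraMap_smul Γ(Spec A, dOpen h) b g', ← hl, ← smul_assoc,
        Algebra.smul_def, map_pow, mul_comm]
    obtain ⟨⟨_, m, rfl⟩, hm⟩ := (IsLocalizedModule.eq_iff_exists (.powers h) (topRes M h)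
      (x₁ := h ^ n • h ^ l • x) (x₂ := b • f)).1 (by simp only [map_smul, h1])
    refine ⟨m + (n + l), Submodule.mem_span_singleton.2 ⟨h ^ m * b, ?_⟩⟩
    simp only [Submonoid.smul_def] at hm
    rw [pow_add, pow_add, mul_smul, mul_smul, mul_smul, hm]
  · have h1 : algebraMap A Γ(Spec A, dOpen h) (a * h ^ n) • g' = 0 := by
      rw [algebraMap_smul, mul_smul, hf, ← map_smul, ha, map_zero]
    have h2 : algebraMap A Γ(Spec A, dOpen h) (a * h ^ n) = 0 :=
      hb.1 (h1.trans (zero_smul _ g').symm)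
    obtain ⟨⟨_, m, rfl⟩, hm⟩ := (IsLocalization.map_eq_zero_iff (.powers h) _ _).1 h2
    exact ⟨m + n, by rw [pow_add, mul_assoc, mul_comm (h ^ n)]; exact hm⟩

/-- The sheaf of an invertible module has local generators. -/
theorem hasGens_tilde (N : ModuleCat.{u} A) [Module.Invertible A N] :
    HasGens ⊤ (tilde N) := fun p _ => by
  -- Near `p` the module has a generator `f` on `D(g)`, without torsion after inverting `g`.
  obtain ⟨g, hgp, f, hgen, hann⟩ := exists_local_generator A N p
  let j : Spec (CommRingCat.of (Localization.Away g)) ⟶ Spec A :=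
    Spec.map (CommRingCat.ofHom (algebraMap A (Localization.Away g)))
  have : IsOpenImmersion j := IsOpenImmersion.of_isLocalization g
  have hj : j.opensRange = dOpen g :=
    Opens.ext (PrimeSpectrum.localization_away_comap_range (Localization.Away g) g)
  obtain ⟨φ, hφ⟩ : ∃ φ : tilde (ModuleCat.of A A) ⟶ tilde N,
      φ = tilde.map (ModuleCat.ofHom (LinearMap.toSpanSingleton A N f)) := ⟨_, rfl⟩
  let o := ModuleCat.of A A
  have happ : ∀ U a, φ.app U (tilde.toOpen o U a) = tilde.toOpen N U (a • f) := fun U a => by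
    rw [hφ]
    exact congr($(tilde.toOpen_map_app (ModuleCat.ofHom (LinearMap.toSpanSingleton A N f)) U) a)
  have hsmul : ∀ (U : (Spec A).Opens) (r : A) (s : Γ(tilde o, U)),
      φ.app U (r • s) = r • φ.app U s := fun U r s =>
    ((modulesSpecToSheaf.map φ).hom.app (Opposite.op U)).hom.map_smul r s
  have hunit : ∀ (P : (Spec A).Modules) (n : ℕ) (s t : Γ(P, dOpen g)),
      g ^ n • s = g ^ n • t → s = t := fun P n s t h =>
    (P.isSMulRegular_of_le_basicOpen le_rfl).pow n h
  have hloc : ∀ P : ModuleCat.{u} A, IsLocalizedModule (.powers g)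
      (tilde.toOpen P (PrimeSpectrum.basicOpen g)).hom := fun P => inferInstance
  -- So `a ↦ a • f` is bijective on sections over `D(g)`.
  have hb : Function.Bijective (φ.app (dOpen g)) := by
    refine ⟨(injective_iff_map_eq_zero _).2 fun z hz => ?_, fun y => ?_⟩
    · have := hloc o
      obtain ⟨⟨a, _, n, rfl⟩, ha⟩ := IsLocalizedModule.surj (Submonoid.powers g)
        (tilde.toOpen o (PrimeSpectrum.basicOpen g)).hom z
      replace ha : g ^ n • z = tilde.toOpen o (dOpen g) a := ha
      have h1 : tilde.toOpen N (dOpen g) (a • f) = 0 := by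
        rw [← happ, ← ha, hsmul, hz, smul_zero]
        rfl
      obtain ⟨⟨_, m, rfl⟩, hm⟩ :=
        (@IsLocalizedModule.eq_zero_iff _ _ (.powers g) _ _ _ _ _ _
          (tilde.toOpen N (PrimeSpectrum.basicOpen g)).hom (hloc N) _).1 h1
      obtain ⟨l, hl⟩ := hann (g ^ m * a) (by rw [mul_smul]; exact hm)
      refine hunit _ (l + (m + n)) _ _ ?_
      rw [smul_zero, pow_add, pow_add, mul_smul, mul_smul, ha]
      let T := (tilde.toOpen o (dOpen g)).hom
      have h0 : g ^ l • g ^ m • a = (0 : o) := hl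
      exact ((congrArg (g ^ l • ·) (T.map_smul (g ^ m) a).symm).trans
        ((T.map_smul (g ^ l) _).symm.trans ((congrArg T h0).trans (map_zero T))) :)
    · have := hloc N
      obtain ⟨⟨x, _, n, rfl⟩, hx⟩ := IsLocalizedModule.surj (Submonoid.powers g)
        (tilde.toOpen N (PrimeSpectrum.basicOpen g)).hom y
      replace hx : g ^ n • y = tilde.toOpen N (dOpen g) x := hx
      obtain ⟨l, hl⟩ := hgen x
      obtain ⟨a, ha⟩ := Submodule.mem_span_singleton.1 hl
      obtain ⟨z, hz⟩ := ((Scheme.Modules.isUnit_algebraMap_end_of_le_basicOpen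
        (M := tilde o) g (le_refl (dOpen g))).pow (l + n) |> (Module.End.isUnit_iff _).1).2
          (tilde.toOpen o (dOpen g) a)
      refine ⟨z, hunit _ (l + n) _ _ ?_⟩
      rw [← map_pow, Module.algebraMap_end_apply] at hz
      rw [← hsmul, hz, happ, ha, map_smul, ← hx, pow_add, mul_smul]
      rfl
  -- There it trivialises the sheaf.
  have hres : IsIso ((Scheme.Modules.restrictFunctor j).map φ) := by
    refine isIso_of_bijective_top _ ?_
    show Function.Bijective (φ.app (j ''ᵁ ⊤))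
    rw [j.image_top_eq_opensRange, hj]
    exact hb
  let e : (tilde N).restrict j ≅ oMod _ :=
    (asIso ((Scheme.Modules.restrictFunctor j).map φ)).symm ≪≫
      (Scheme.Modules.restrictFunctor j).mapIso tildeSelf ≪≫ Scheme.Modules.restrictUnitIso j
  obtain ⟨s, hs⟩ := exists_gen_of_iso j e
  exact ⟨_, s, hj ▸ hgp, le_top, hs⟩

end Spec

/-! ### Affine charts -/

section Chart

variable {X : Scheme.{u}} {A : Type u} [CommRing A]

/-- An element of `A` as a function on the image of an open immersion of `Spec A`. -/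
def chartFun (j : Spec (CommRingCat.of A) ⟶ X) [IsOpenImmersion j] : A →+* Γ(X, j ''ᵁ ⊤) :=
  (j.appIso ⊤).inv.hom.comp (Scheme.ΓSpecIso (CommRingCat.of A)).inv.hom

/-- The elements of the ring are exactly the functions on the image of its spectrum. -/
theorem chartFun_bijective (j : Spec (CommRingCat.of A) ⟶ X) [IsOpenImmersion j] :
    Function.Bijective (chartFun j) :=
  ((j.appIso ⊤).symm.commRingCatIsoToRingEquiv.bijective).comp
    ((Scheme.ΓSpecIso (CommRingCat.of A)).symm.commRingCatIsoToRingEquiv.bijective)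

/-- Restriction between images of affine charts is the ring homomorphism. -/
theorem rres_chartFun {B : Type u} [CommRing B] (j : Spec (CommRingCat.of A) ⟶ X)
    [IsOpenImmersion j] (j' : Spec (CommRingCat.of B) ⟶ X) [IsOpenImmersion j'] (φ : A →+* B)
    (hj : Spec.map (CommRingCat.ofHom φ) ≫ j = j') (h : j' ''ᵁ ⊤ ≤ j ''ᵁ ⊤) (a : A) :
    rres X h (chartFun j a) = chartFun j' (φ a) := by
  refine (ConcreteCategory.bijective_of_isIso (j'.appIso ⊤).hom).1 ?_
  show (j'.appIso ⊤).hom
    (rres X h ((j.appIso ⊤).inv ((Scheme.ΓSpecIso (CommRingCat.of A)).inv a))) =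
    (j'.appIso ⊤).hom ((j'.appIso ⊤).inv ((Scheme.ΓSpecIso (CommRingCat.of B)).inv (φ a)))
  rw [(j'.appIso ⊤).inv_hom_id_apply, rres]
  have hB : (Scheme.ΓSpecIso (CommRingCat.of B)).inv (φ a) =
      (Spec.map (CommRingCat.ofHom φ)).appTop ((Scheme.ΓSpecIso (CommRingCat.of A)).inv a) :=
    congr($(Scheme.ΓSpecIso_inv_naturality (CommRingCat.ofHom φ)) a)
  rw [hB]
  generalize (Scheme.ΓSpecIso (CommRingCat.of A)).inv a = z
  obtain ⟨z, rfl⟩ := (ConcreteCategory.bijective_of_isIso (j.appIso ⊤).hom).2 z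
  rw [(j.appIso ⊤).hom_inv_id_apply]
  subst hj
  simp only [Scheme.Hom.appIso_hom', ← ConcreteCategory.comp_apply]
  rw [Scheme.Hom.map_appLE, Scheme.Hom.appTop, Scheme.Hom.app_eq_appLE]
  exact congr($((Scheme.Hom.appLE_comp_appLE _ _ _ _ _ _ _).symm) z)

section Smul

variable {A₀ : CommRingCat.{u}} (i : Spec A₀ ⟶ X) [IsOpenImmersion i] (L : X.Modules)

/-- The action of the ring on the sections of a restriction. -/
theorem smul_restrict (U : (Spec A₀).Opens) (a : A₀) (s : Γ(L.restrict i, U)) :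
    a • s = (rres X (Scheme.Hom.image_mono i (le_top : U ≤ ⊤)) (chartFun (A := A₀) i a) •
      (show Γ(L, i ''ᵁ U) from s) : Γ(L, i ''ᵁ U)) := by
  show ((i.appIso U).inv ((Spec A₀).presheaf.map U.leTop.op
    ((Scheme.ΓSpecIso A₀).inv a)) : Γ(X, i ''ᵁ U)) • (show Γ(L, i ''ᵁ U) from s) = _
  congr 1
  exact congr($(Scheme.Hom.appIso_inv_naturality i U.leTop.op) ((Scheme.ΓSpecIso A₀).inv a))

theorem smul_restrict_top (a : A₀) (s : Γ(L.restrict i, ⊤)) :
    a • s = (chartFun (A := A₀) i a • (show Γ(L, i ''ᵁ ⊤) from s) : Γ(L, i ''ᵁ ⊤)) := by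
  rw [smul_restrict, rres_self]

variable {L}

/-- A sheaf with generators on the chart is quasi-coherent there. -/
theorem isQuasicoherent_restrict (hL : HasGens i.opensRange L) : (L.restrict i).IsQuasicoherent :=
  isQuasicoherent_of_isInvertible (isInvertible_of_hasGens (hL.restrict i le_rfl))

/-- A section on a basic open of the chart extends after multiplication by a power. -/
theorem exists_extend_chart (hL : HasGens i.opensRange L) (f : A₀) (t : Γ(L, i ''ᵁ dOpen f)) :
    ∃ (n : ℕ) (s : Γ(L, i ''ᵁ ⊤)), mres L (Scheme.Hom.image_mono i le_top) s =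
      rres X (Scheme.Hom.image_mono i (le_top : dOpen f ≤ ⊤))
        (chartFun (A := A₀) i (f ^ n)) • t := by
  have := isQuasicoherent_restrict i hL
  let t' : Γ(L.restrict i, dOpen f) := t
  obtain ⟨⟨s, _, n, rfl⟩, hs⟩ :=
    IsLocalizedModule.surj (Submonoid.powers f) (topRes (L.restrict i) f) t'
  exact ⟨n, s, ((smul_restrict i L (dOpen f) (f ^ n) t').symm.trans hs).symm⟩

/-- A section vanishing on a basic open of the chart is killed by a power. -/
theorem exists_pow_smul_chart (hL : HasGens i.opensRange L) (f : A₀) {s : Γ(L, i ''ᵁ ⊤)}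
    (hs : mres L (Scheme.Hom.image_mono i (le_top : dOpen f ≤ ⊤)) s = 0) :
    ∃ n : ℕ, chartFun (A := A₀) i (f ^ n) • s = 0 := by
  have := isQuasicoherent_restrict i hL
  let s' : Γ(L.restrict i, ⊤) := s
  obtain ⟨⟨_, n, rfl⟩, hn⟩ :=
    (IsLocalizedModule.eq_zero_iff (Submonoid.powers f) (topRes (L.restrict i) f) (m := s')).1 hs
  exact ⟨n, (smul_restrict_top i L (f ^ n) s').symm.trans hn⟩

/-- The sections on the chart form an invertible module. -/
theorem invertible_chart (hL : HasGens i.opensRange L) :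
    @Module.Invertible A₀ Γ(L, i ''ᵁ ⊤) _ _ (Module.compHom _ (chartFun (A := A₀) i)) := by
  have := isQuasicoherent_restrict i hL
  have := invertible_top (hL.restrict i le_rfl)
  let _ : Module A₀ Γ(L, i ''ᵁ ⊤) := Module.compHom _ (chartFun (A := A₀) i)
  let e : Γ(L.restrict i, ⊤) ≃ₗ[A₀] Γ(L, i ''ᵁ ⊤) :=
    { toAddEquiv := AddEquiv.refl _
      map_smul' := smul_restrict_top i L }
  exact Module.Invertible.congr e

/-- A section vanishing where a regular element is invertible vanishes. -/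
theorem mres_injective_chart (hL : HasGens i.opensRange L) {f : A₀} (hf : IsRegular f) :
    Function.Injective (mres L (Scheme.Hom.image_mono i (le_top : dOpen f ≤ ⊤))) := by
  refine (injective_iff_map_eq_zero _).2 fun s hs => ?_
  obtain ⟨n, hn⟩ := exists_pow_smul_chart i hL f hs
  let _ : Module A₀ Γ(L, i ''ᵁ ⊤) := Module.compHom _ (chartFun (A := A₀) i)
  have := invertible_chart i hL
  exact (Module.Flat.isSMulRegular_of_isRegular (M := Γ(L, i ''ᵁ ⊤)) (hf.pow n))
    (hn.trans (smul_zero (f ^ n)).symm)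

/-- Sections on the chart generate locally. -/
theorem exists_isGen_chart (hL : HasGens i.opensRange L) {p : Spec A₀} :
    ∃ (D : X.Opens) (hD : D ≤ i ''ᵁ ⊤) (s : Γ(L, i ''ᵁ ⊤)), i p ∈ D ∧ IsGen L D (mres L hD s) := by
  obtain ⟨W, g, hW, -, hg⟩ := hL (i p) ⟨p, rfl⟩
  obtain ⟨_, ⟨f, rfl⟩, hpf, hfW⟩ :=
    PrimeSpectrum.isTopologicalBasis_basic_opens.exists_subset_of_mem_open
    (show p ∈ (SetLike.coe (i ⁻¹ᵁ W) : Set (PrimeSpectrum A₀)) from hW) (i ⁻¹ᵁ W).2
  have hle : i ''ᵁ dOpen f ≤ W := (Scheme.Hom.image_mono i hfW).trans (i.image_preimage_le W)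
  have hD : i ''ᵁ dOpen f ≤ i ''ᵁ ⊤ := Scheme.Hom.image_mono i le_top
  obtain ⟨n, s, hs⟩ := exists_extend_chart i hL f (mres L hle g)
  refine ⟨i ''ᵁ dOpen f, hD, s, ⟨p, hpf, rfl⟩, fun W' hW' => ?_⟩
  have hu : IsUnit (rres X hW' (rres X hD (chartFun (A := A₀) i (f ^ n)))) := by
    refine IsUnit.map _ ?_
    rw [map_pow, map_pow]
    refine IsUnit.pow n ?_
    have h1 : IsUnit (algebraMap A₀ Γ(Spec A₀, dOpen f) f) :=
      IsLocalization.Away.algebraMap_isUnit f
    exact (congr($(Scheme.Hom.appIso_inv_naturality i (dOpen f).leTop.op)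
      ((Scheme.ΓSpecIso A₀).inv f))) ▸ h1.map ((i.appIso (dOpen f)).inv).hom
  convert (hg.mres hle W' hW').comp hu.unit.mulRight_bijective using 1
  funext a
  simp only [Function.comp_apply, IsUnit.unit_spec, hs, mres_smul, mul_smul]

end Smul

variable (j : Spec (CommRingCat.of A) ⟶ X) [IsOpenImmersion j]

/-- A local morphism from a quasi-coherent sheaf is determined by the sections on the chart. -/
theorem localHom_ext_top {P Q : X.Modules} [(P.restrict j).IsQuasicoherent]
    {φ ψ : LocalHom j.opensRange P Q} (h : ∀ s : Γ(P, j ''ᵁ ⊤),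
      φ.app (j ''ᵁ ⊤) (j.image_le_opensRange _) s = ψ.app (j ''ᵁ ⊤) (j.image_le_opensRange _) s) :
    φ = ψ := by
  have he : restrictHom j le_rfl φ = restrictHom j le_rfl ψ := hom_ext_top h
  refine LocalHom.ext_app fun W hW s => ?_
  have hWg : W ≤ j ''ᵁ (j ⁻¹ᵁ W) := by
    rw [j.image_preimage_eq_opensRange_inf]
    exact le_inf hW le_rfl
  have h0 := congr(mres Q hWg
    (Scheme.Modules.Hom.app $he (j ⁻¹ᵁ W) (mres P (j.image_preimage_le W) s)))
  simp only [restrictHom_app] at h0
  rwa [← φ.naturality _ _ hWg ((j.image_le_opensRange _).trans le_rfl),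
    ← ψ.naturality _ _ hWg ((j.image_le_opensRange _).trans le_rfl), mres_mres, mres_self] at h0

/-- A morphism of restrictions gives a morphism over the image. -/
def extendHom {P Q : X.Modules} (e : P.restrict j ⟶ Q.restrict j) : LocalHom j.opensRange P Q where
  app W hW := pushMap (𝟙 X) (𝟙 X) j j j (Category.comp_id j) (Category.comp_id j) e W hW
  map_smul W hW a s :=
    pushMap_smul (𝟙 X) (𝟙 X) j j j (Category.comp_id j) (Category.comp_id j) e W hW a s
  naturality W' W h hW s :=
    pushMap_naturality (𝟙 X) (𝟙 X) j j j (Category.comp_id j) (Category.comp_id j) e W' W h hW s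

theorem extendHom_app {P Q : X.Modules} (e : P.restrict j ⟶ Q.restrict j)
    (U : (Spec (CommRingCat.of A)).Opens) (s : Γ(P, j ''ᵁ U)) :
    (extendHom j e).app (j ''ᵁ U) (j.image_le_opensRange _) s = e.app U s := by
  have hle : j ⁻¹ᵁ (j ''ᵁ U) ≤ U := (j.preimage_image_eq U).le
  show mres Q _ (e.app (j ⁻¹ᵁ (j ''ᵁ U)) (mres (P.restrict j) hle s)) = _
  rw [app_mres e hle]
  exact (mres_mres Q _ (Scheme.Hom.image_mono j hle) (e.app U s : Γ(Q, j ''ᵁ U))).trans
    (mres_self Q le_rfl _)

/-- An isomorphism of restrictions gives an isomorphism over the image. -/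
def extendIso {P Q : X.Modules} (e : P.restrict j ≅ Q.restrict j) :
    LocalIso j.opensRange P Q where
  hom := extendHom j e.hom
  inv := extendHom j e.inv
  hom_inv_id := LocalHom.ext_app fun W hW s =>
    congr(($(pushHom_comp (𝟙 X) (𝟙 X) j j j (Category.comp_id j) (Category.comp_id j) e.hom e.inv
      e.hom_inv_id)).app W hW s)
  inv_hom_id := LocalHom.ext_app fun W hW s =>
    congr(($(pushHom_comp (𝟙 X) (𝟙 X) j j j (Category.comp_id j) (Category.comp_id j) e.inv e.hom
      e.inv_hom_id)).app W hW s)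

/-- Generators of a sheaf on the chart give generators of the push forward. -/
theorem hasGens_pushforward {Y : Scheme.{u}} (f : Y ⟶ X) [IsOpenImmersion f] {M : Y.Modules}
    (hM : HasGens ⊤ M) : HasGens f.opensRange ((Scheme.Modules.pushforward f).obj M) := by
  rintro _ ⟨w, rfl⟩
  obtain ⟨U, hwU, ⟨e⟩⟩ := (isInvertible_of_hasGens hM).exists_trivialization w
  obtain ⟨g, hg⟩ := exists_gen_of_iso (U.ι ≫ f)
    ((Scheme.Modules.restrictFunctorComp U.ι f).app _ ≪≫
      (Scheme.Modules.restrictFunctor U.ι).mapIso (pushforwardRestrict f M) ≪≫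
      (Scheme.Modules.restrictFunctorIsoPullback U.ι).app M ≪≫ e)
  refine ⟨_, g, ⟨⟨w, hwU⟩, rfl⟩, ?_, hg⟩
  rintro _ ⟨v, rfl⟩
  exact ⟨U.ι v, rfl⟩

/-! ### Sheaves from modules on a chart -/

section Model

variable {A₀ : CommRingCat.{u}} (i : Spec A₀ ⟶ X) [IsOpenImmersion i]

/-- An isomorphism of sections on the chart extends to an isomorphism over it. -/
theorem exists_localIso_chart {P Q : X.Modules} (hP : HasGens i.opensRange P)
    (hQ : HasGens i.opensRange Q) (e : Γ(P, i ''ᵁ ⊤) ≃+ Γ(Q, i ''ᵁ ⊤))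
    (he : ∀ (a : A₀) (s : Γ(P, i ''ᵁ ⊤)),
      e (chartFun (A := A₀) i a • s) = chartFun (A := A₀) i a • e s) :
    ∃ θ : LocalIso i.opensRange P Q, ∀ s : Γ(P, i ''ᵁ ⊤),
      θ.hom.app (i ''ᵁ ⊤) (i.image_le_opensRange _) s = e s := by
  have := isQuasicoherent_restrict i hP
  have := isQuasicoherent_restrict i hQ
  let e' : Γ(P.restrict i, ⊤) ≃ₗ[A₀] Γ(Q.restrict i, ⊤) :=
    { e with
      map_smul' := fun a s => (congrArg e (smul_restrict_top i P a s)).trans
        ((he a s).trans (smul_restrict_top i Q a (e s)).symm) }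
  obtain ⟨φ, hφ⟩ := exists_iso_of_top e'
  exact ⟨extendIso (A := A₀) i φ, fun s => (extendHom_app (A := A₀) i φ.hom ⊤ s).trans (hφ s)⟩

/-- An invertible module gives a sheaf supported on the chart with these sections. -/
theorem exists_chart_model (N : Type u) [AddCommGroup N] [Module A₀ N] [Module.Invertible A₀ N] :
    ∃ P : X.Modules, HasGens i.opensRange P ∧
      (∀ W : X.Opens, Function.Bijective (mres P (inf_le_left : W ⊓ i ''ᵁ ⊤ ≤ W))) ∧
      ∃ α : N ≃+ Γ(P, i ''ᵁ ⊤), ∀ (a : A₀) (x : N), α (a • x) = chartFun (A := A₀) i a • α x := by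
  let T := tilde (ModuleCat.of A₀ N)
  let P := (Scheme.Modules.pushforward i).obj T
  refine ⟨P, hasGens_pushforward i (hasGens_tilde _), fun W => ?_, ?_⟩
  · have hle : i ⁻¹ᵁ W ≤ i ⁻¹ᵁ (W ⊓ i ''ᵁ ⊤) := fun z hz => ⟨hz, z, trivial, rfl⟩
    exact Function.bijective_iff_has_inverse.2 ⟨mres T hle,
      fun s => (mres_mres T _ _ s).trans (mres_self T le_rfl s),
      fun s => (mres_mres T _ _ s).trans (mres_self T le_rfl s)⟩
  · let φ := pushforwardRestrict i T
    let f : N →+ Γ(P, i ''ᵁ ⊤) :=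
      AddMonoidHom.mk' (fun x => φ.inv.app ⊤ (tilde.toOpen (ModuleCat.of A₀ N) ⊤ x)) fun x y =>
        (congrArg (φ.inv.app ⊤) (map_add (tilde.toOpen (ModuleCat.of A₀ N) ⊤).hom x y)).trans
          (map_add _ _ _)
    have hb : Function.Bijective f :=
      (ConcreteCategory.bijective_of_isIso (φ.inv.app ⊤)).comp
        (ConcreteCategory.bijective_of_isIso (tilde.toOpen (ModuleCat.of A₀ N) ⊤))
    refine ⟨AddEquiv.ofBijective f hb, fun a x => ?_⟩
    show φ.inv.app ⊤ (tilde.toOpen (ModuleCat.of A₀ N) ⊤ (a • x)) = _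
    exact ((congrArg (φ.inv.app ⊤) ((tilde.toOpen (ModuleCat.of A₀ N) ⊤).hom.map_smul a x)).trans
      (((modulesSpecToSheaf.map φ.inv).hom.app (Opposite.op ⊤)).hom.map_smul a _)).trans
      (smul_restrict_top i P a (φ.inv.app ⊤ (tilde.toOpen (ModuleCat.of A₀ N) ⊤ x)))

end Model

end Chart

end Fermat.Agent.Jac

end
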