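import Fermat.Agent.Jac.Cohom
import Fermat.Agent.Jac.Scheme.Cover
import Fermat.Agent.Jac.Scheme.Sec.Affine

/-!
# The algebraic line bundle of an invertible sheaf on the curve over an affine base
-/

set_option autoImplicit false

universe u

noncomputable section

open CategoryTheory CategoryTheory.Limits AlgebraicGeometry TensorProduct NeronModelInfra
open Fermat.Agent.Jac.ModGlue

namespace Fermat.Agent.Jac

namespace CurveCover

variable {k : Type u} [Field k] {C : Scheme.{u}} {c : C ⟶ Spec (CommRingCat.of k)}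
  {ε : SchemeHomOver (𝟙 (Spec (CommRingCat.of k))) c} (cov : CurveCover c ε)
variable (R : Type u) [CommRing R] [Algebra k R]

/-- The overlap of the two charts over `R`. -/
def jR01 : Spec (CommRingCat.of (cov.D.A01 R)) ⟶ pullback c (specT k R) :=
  Spec.map (CommRingCat.ofHom (algebraMap (cov.D.A R 0) (cov.D.A01 R))) ≫ cov.jR R 0

instance isOpenImmersion_jR01 : IsOpenImmersion (cov.jR01 R) := by
  have := IsOpenImmersion.of_isLocalization (R := cov.D.A R 0) (S := cov.D.A01 R) (cov.D.tR R 0)
  unfold jR01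
  infer_instance

theorem jR01_eq (i : Fin 2) :
    Spec.map (CommRingCat.ofHom (algebraMap (cov.D.A R i) (cov.D.A01 R))) ≫ cov.jR R i =
      cov.jR01 R := by
  have hw : ∀ l : Fin 2, (Spec.map (CommRingCat.ofHom (algebraMap (cov.D.A R l) (cov.D.A01 R))) ≫
      cov.jR R l) ≫ pullback.fst c (specT k R) =
        Spec.map (CommRingCat.ofHom (Algebra.TensorProduct.includeRight :
          cov.D.B01 →ₐ[k] R ⊗[k] cov.D.B01).toRingHom) ≫
            Spec.map (CommRingCat.ofHom (cov.D.res l).toRingHom) ≫ cov.j l := fun l => by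
    simp only [Category.assoc, jR_fst]
    rw [← Spec.map_comp_assoc, ← Spec.map_comp_assoc]
    congr 2
  unfold jR01
  apply pullback.hom_ext
  · rw [hw, hw]
    rcases (show i = 0 ∨ i = 1 by omega) with rfl | rfl
    · rfl
    · rw [cov.overlap.w]
  · simp only [Category.assoc, jR_snd, ← Spec.map_comp, ← CommRingCat.ofHom_comp,
      ← IsScalarTower.algebraMap_eq]

/-- The chart opens. -/
abbrev opensR (i : Fin 2) : (pullback c (specT k R)).Opens := cov.jR R i ''ᵁ ⊤

/-- The overlap open. -/
abbrev opens01 : (pullback c (specT k R)).Opens := cov.jR01 R ''ᵁ ⊤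

theorem opens01_le (i : Fin 2) : cov.opens01 R ≤ cov.opensR R i := by
  intro x hx
  obtain ⟨z, -, rfl⟩ := hx
  exact ⟨(Spec.map (CommRingCat.ofHom (algebraMap (cov.D.A R i) (cov.D.A01 R)))).base z, trivial,
    by rw [← cov.jR01_eq R i]; rfl⟩

/-- The overlap is where the coordinate of either chart is invertible. -/
theorem opens01_eq_image (i : Fin 2) :
    cov.opens01 R = cov.jR R i ''ᵁ dOpen (A := CommRingCat.of (cov.D.A R i)) (cov.D.tR R i) := by
  have hr : Set.range (Spec.map (CommRingCat.ofHom (algebraMap (cov.D.A R i) (cov.D.A01 R)))).base =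
      ((PrimeSpectrum.basicOpen (cov.D.tR R i)) : Set (PrimeSpectrum (cov.D.A R i))) :=
    PrimeSpectrum.localization_away_comap_range (cov.D.A01 R) (cov.D.tR R i)
  refine TopologicalSpace.Opens.ext ?_
  simp only [Scheme.Hom.coe_image, TopologicalSpace.Opens.coe_top, Set.image_univ]
  rw [← cov.jR01_eq R i, Scheme.Hom.comp_base, TopCat.coe_comp, Set.range_comp, hr]
  rfl

/-- The overlap is the intersection of the two charts. -/
theorem opens01_eq_inf : cov.opens01 R = cov.opensR R 0 ⊓ cov.opensR R 1 := by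
  refine le_antisymm (le_inf (cov.opens01_le R 0) (cov.opens01_le R 1)) fun x hx => ?_
  obtain ⟨⟨a, -, rfl⟩, ⟨b, -, hb⟩⟩ := hx
  let p : Spec (CommRingCat.of (cov.D.A R 0)) ⟶ Spec (CommRingCat.of (cov.D.B 0)) :=
    Spec.map (CommRingCat.ofHom ((Algebra.TensorProduct.includeRight :
      cov.D.B 0 →ₐ[k] cov.D.A R 0) : cov.D.B 0 →+* cov.D.A R 0))
  have ha : cov.j 0 (p a) = pullback.fst c (specT k R) (cov.jR R 0 a) := by
    show (p ≫ cov.j 0) a = (cov.jR R 0 ≫ pullback.fst c (specT k R)) a
    rw [cov.jR_fst]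
  obtain ⟨z, hz⟩ : ∃ z, cov.j 1 z = cov.j 0 (p a) := by
    refine ⟨(Spec.map (CommRingCat.ofHom ((Algebra.TensorProduct.includeRight :
      cov.D.B 1 →ₐ[k] cov.D.A R 1) : cov.D.B 1 →+* cov.D.A R 1))) b, Eq.trans ?_ ha.symm⟩
    rw [show cov.jR R 0 a = cov.jR R 1 b from hb.symm]
    show (Spec.map (CommRingCat.ofHom ((Algebra.TensorProduct.includeRight :
      cov.D.B 1 →ₐ[k] cov.D.A R 1) : cov.D.B 1 →+* cov.D.A R 1)) ≫ cov.j 1) b = _
    rw [← cov.jR_fst]
    rfl
  obtain ⟨q, hq, -⟩ := Scheme.Pullback.exists_preimage_pullback (f := cov.j 0) (g := cov.j 1)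
    (p a) z hz.symm
  have hp : p a ∈ Set.range (Spec.map (CommRingCat.ofHom (cov.D.res 0).toRingHom)).base := by
    refine ⟨cov.overlap.isoPullback.inv q, ?_⟩
    show (cov.overlap.isoPullback.inv ≫ Spec.map (CommRingCat.ofHom (cov.D.res 0).toRingHom)) q = _
    rw [cov.overlap.isoPullback_inv_fst]
    exact hq
  rw [show Set.range (Spec.map (CommRingCat.ofHom (cov.D.res 0).toRingHom)).base =
    ((PrimeSpectrum.basicOpen (cov.D.t 0)) : Set (PrimeSpectrum (cov.D.B 0))) from
      PrimeSpectrum.localization_away_comap_range cov.D.B01 (cov.D.t 0)] at hp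
  rw [cov.opens01_eq_image R 0]
  exact ⟨a, hp, rfl⟩

variable {R} (L : (pullback c (specT k R)).Modules)

/-- The sections over the overlap. -/
def Sec01 : Type u := Γ(L, cov.opens01 R)

instance : AddCommGroup (cov.Sec01 L) := inferInstanceAs (AddCommGroup Γ(L, cov.opens01 R))

instance module01 : Module (cov.D.A01 R) (cov.Sec01 L) :=
  Module.compHom Γ(L, cov.opens01 R) (chartFun (cov.jR01 R))

instance moduleChart (i : Fin 2) : Module (cov.D.A R i) (cov.Sec01 L) :=
  Module.compHom (cov.Sec01 L) (algebraMap (cov.D.A R i) (cov.D.A01 R))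

instance moduleBase : Module R (cov.Sec01 L) :=
  Module.compHom (cov.Sec01 L) (algebraMap R (cov.D.A01 R))

instance towerChart (i : Fin 2) : IsScalarTower (cov.D.A R i) (cov.D.A01 R) (cov.Sec01 L) :=
  IsScalarTower.of_algebraMap_smul fun _ _ => rfl

instance towerBase : IsScalarTower R (cov.D.A01 R) (cov.Sec01 L) :=
  IsScalarTower.of_algebraMap_smul fun _ _ => rfl

instance towerBaseChart (i : Fin 2) : IsScalarTower R (cov.D.A R i) (cov.Sec01 L) :=
  IsScalarTower.of_algebraMap_smul fun r m => by
    show (algebraMap (cov.D.A R i) (cov.D.A01 R) (algebraMap R (cov.D.A R i) r)) • m =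
      algebraMap R (cov.D.A01 R) r • m
    rw [← IsScalarTower.algebraMap_apply]

/-- Restriction of sections from a chart to the overlap. -/
def secRes (i : Fin 2) : Γ(L, cov.opensR R i) →+ cov.Sec01 L := mres L (cov.opens01_le R i)

/-- Restriction to the overlap is linear over the chart ring. -/
theorem secRes_smul (i : Fin 2) (a : cov.D.A R i) (s : Γ(L, cov.opensR R i)) :
    cov.secRes L i (chartFun (cov.jR R i) a • s) = a • cov.secRes L i s := by
  show mres L (cov.opens01_le R i) (chartFun (cov.jR R i) a • s) =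
    chartFun (cov.jR01 R) (algebraMap (cov.D.A R i) (cov.D.A01 R) a) • mres L (cov.opens01_le R i) s
  rw [mres_smul]
  congr 1
  exact rres_chartFun _ _ _ (cov.jR01_eq R i) (cov.opens01_le R i) a

theorem invertible_sec01_of_hasGens (hL : HasGens (cov.jR01 R).opensRange L) :
    Module.Invertible (cov.D.A01 R) (cov.Sec01 L) :=
  invertible_chart (A₀ := CommRingCat.of (cov.D.A01 R)) (cov.jR01 R) hL

theorem invertible_sec01 (hL : Scheme.Modules.IsInvertible L) :
    Module.Invertible (cov.D.A01 R) (cov.Sec01 L) :=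
  cov.invertible_sec01_of_hasGens L (hasGens_of_isInvertible hL _)

theorem isRegular_tR (i : Fin 2) : IsRegular (cov.D.tR R i) :=
  isRegular_iff_mem_nonZeroDivisors.2 (mem_nonZeroDivisors_iff_right.2 fun x hx => by
    refine cov.D.resR_injective R i ?_
    rw [map_zero, ← (CurveData.isUnit_tR i).mul_left_eq_zero, ← map_mul]
    exact (congrArg _ hx).trans (map_zero _))

/-- Sections over the overlap are sections over a chart divided by powers of the coordinate. -/
theorem exists_secRes_eq (i : Fin 2) (hL : HasGens (cov.jR R i).opensRange L) (m : cov.Sec01 L) :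
    ∃ (n : ℕ) (s : Γ(L, cov.opensR R i)), cov.secRes L i s = cov.D.tR R i ^ n • m := by
  have h01 := cov.opens01_eq_image R i
  obtain ⟨n, s, hs⟩ := exists_extend_chart (A₀ := CommRingCat.of (cov.D.A R i)) (cov.jR R i) hL
    (cov.D.tR R i) (mres L h01.ge m)
  refine ⟨n, s, ?_⟩
  have h1 := congrArg (mres L h01.le) hs
  rw [mres_smul, rres_rres, mres_mres, mres_mres, mres_self] at h1
  exact h1.trans (congrArg (fun a : Γ(pullback c (specT k R), cov.opens01 R) =>
    a • (show Γ(L, cov.opens01 R) from m))
      (rres_chartFun _ _ _ (cov.jR01_eq R i) (cov.opens01_le R i) _))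

theorem secRes_injective_of_hasGens (i : Fin 2) (hL : HasGens (cov.jR R i).opensRange L) :
    Function.Injective (cov.secRes L i) := fun s s' h => by
  have h01 := cov.opens01_eq_image R i
  refine mres_injective_chart (A₀ := CommRingCat.of (cov.D.A R i)) (cov.jR R i) hL
    (cov.isRegular_tR i) ?_
  have h1 := congrArg (mres L h01.ge) (show mres L (cov.opens01_le R i) s =
    mres L (cov.opens01_le R i) s' from h)
  simpa only [mres_mres] using h1

/-- Restriction of sections of an invertible module to the overlap is injective. -/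
theorem secRes_injective (hL : Scheme.Modules.IsInvertible L) (i : Fin 2) :
    Function.Injective (cov.secRes L i) :=
  cov.secRes_injective_of_hasGens L i (hasGens_of_isInvertible hL _)

/-- The lattice of a chart. -/
def secLattice (i : Fin 2) : Submodule (cov.D.A R i) (cov.Sec01 L) where
  carrier := Set.range (cov.secRes L i)
  add_mem' := by
    rintro _ _ ⟨s, rfl⟩ ⟨t, rfl⟩
    exact ⟨s + t, map_add _ _ _⟩
  zero_mem' := ⟨0, map_zero _⟩
  smul_mem' a := by
    rintro _ ⟨s, rfl⟩
    exact ⟨_, cov.secRes_smul L i a s⟩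

theorem invertible_secLattice_of_hasGens (i : Fin 2) (hL : HasGens (cov.jR R i).opensRange L) :
    Module.Invertible (cov.D.A R i) (cov.secLattice L i) := by
  let _ : Module (cov.D.A R i) Γ(L, cov.opensR R i) := Module.compHom _ (chartFun (cov.jR R i))
  have : Module.Invertible (cov.D.A R i) Γ(L, cov.opensR R i) :=
    invertible_chart (A₀ := CommRingCat.of (cov.D.A R i)) (cov.jR R i) hL
  let f : Γ(L, cov.opensR R i) →ₗ[cov.D.A R i] cov.secLattice L i :=
    { toFun := fun s => ⟨cov.secRes L i s, s, rfl⟩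
      map_add' := fun s t => Subtype.ext (map_add (cov.secRes L i) s t)
      map_smul' := fun a s => Subtype.ext (cov.secRes_smul L i a s) }
  refine Module.Invertible.congr (LinearEquiv.ofBijective f
    ⟨fun _ _ hst => cov.secRes_injective_of_hasGens L i hL (congrArg Subtype.val hst), ?_⟩)
  rintro ⟨_, s, rfl⟩
  exact ⟨s, rfl⟩

theorem invertible_secLattice (hL : Scheme.Modules.IsInvertible L) (i : Fin 2) :
    Module.Invertible (cov.D.A R i) (cov.secLattice L i) :=
  cov.invertible_secLattice_of_hasGens L i (hasGens_of_isInvertible hL _)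

/-- Global sections of a chart generate locally. -/
theorem exists_isGen (hL : Scheme.Modules.IsInvertible L) (i : Fin 2)
    {x : ↥(pullback c (specT k R))} (hx : x ∈ cov.opensR R i) :
    ∃ (D : (pullback c (specT k R)).Opens) (hD : D ≤ cov.opensR R i) (s : Γ(L, cov.opensR R i)),
      x ∈ D ∧ IsGen L D (mres L hD s) := by
  obtain ⟨p, -, rfl⟩ := hx
  exact exists_isGen_chart (A₀ := CommRingCat.of (cov.D.A R i)) (cov.jR R i)
    (hasGens_of_isInvertible hL _)

theorem span_secLattice_of_hasGens (i : Fin 2) (hL : HasGens (cov.jR R i).opensRange L) :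
    Submodule.span (cov.D.A01 R) (cov.secLattice L i : Set (cov.Sec01 L)) = ⊤ :=
  CurveData.span_eq_top_of_pow_smul_mem fun m => by
    obtain ⟨n, s, hs⟩ := cov.exists_secRes_eq L i hL m
    exact ⟨n, s, hs⟩

theorem span_secLattice (hL : Scheme.Modules.IsInvertible L) (i : Fin 2) :
    Submodule.span (cov.D.A01 R) (cov.secLattice L i : Set (cov.Sec01 L)) = ⊤ :=
  cov.span_secLattice_of_hasGens L i (hasGens_of_isInvertible hL _)

/-- The algebraic line bundle of an invertible sheaf. -/
def sec (hL : Scheme.Modules.IsInvertible L) : LB cov.D R where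
  M := cov.Sec01 L
  invertible := cov.invertible_sec01 L hL
  L := cov.secLattice L
  invertible_L := cov.invertible_secLattice L hL
  span_L := cov.span_secLattice L hL

end CurveCover

end Fermat.Agent.Jac

end
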